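import Fermat.Agent.TWElement.Mat
import Mathlib.GroupTheory.Index
import Mathlib.FieldTheory.IsAlgClosed.AlgebraicClosure

/-!
# Irreducibility of the adjoint representation and regular elements

If no line is stable under a group `G ⊆ GL₂(k)` or under a subgroup of index two (`NoStableLine`),
then the adjoint action on trace zero matrices has no stable line, pairs nontrivially with every
nonscalar matrix, and a normal subgroup of determinant one containing all commutators has an
element with distinct eigenvalues (`exists_regular`).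
-/

set_option autoImplicit false

open Matrix

namespace Fermat.Agent.TWElement

variable {G : Type*} [Group G] {k : Type*} [Field k]

/-- No line over an algebraic closure is stable by the group or by a subgroup of index two. -/
def NoStableLine (ρ : G →* M2 k) : Prop :=
  ∀ H : Subgroup G, (H = ⊤ ∨ H.index = 2) → ∀ v : Fin 2 → AlgebraicClosure k, v ≠ 0 →
    ∃ σ ∈ H, ∀ c : AlgebraicClosure k,
      (ρ σ).map (algebraMap k (AlgebraicClosure k)) *ᵥ v ≠ c • v

variable {ρ : G →* M2 k}

/-- Without a stable line, a subgroup of index at most two moves every line. -/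
theorem mulVec_stable {H : Subgroup G} (hρ : NoStableLine ρ) (hH : H = ⊤ ∨ H.index = 2)
    (v : Fin 2 → k) (hv : v ≠ 0) : ∃ σ ∈ H, ∀ c : k, ρ σ *ᵥ v ≠ c • v := by
  set f := algebraMap k (AlgebraicClosure k)
  have hv' : f ∘ v ≠ 0 := fun e => hv (funext fun i => f.injective (by simpa using congrFun e i))
  obtain ⟨σ, hσ, h⟩ := hρ H hH _ hv'
  refine ⟨σ, hσ, fun c hc => h (f c) ?_⟩
  funext i
  rw [← RingHom.map_mulVec, hc]
  simp [f]

/-- Nothing nonscalar commutes with a subgroup of index at most two. -/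
theorem isScalar_of_commute {H : Subgroup G} (hρ : NoStableLine ρ) (hH : H = ⊤ ∨ H.index = 2)
    {x : M2 k} (hx : ∀ σ ∈ H, ρ σ * x = x * ρ σ) : IsScalar x := by
  by_contra hsc
  set f := algebraMap k (AlgebraicClosure k)
  have hsc' : ¬ IsScalar (x.map f) := by
    rintro ⟨a, b, c⟩
    exact hsc ⟨f.injective (by simpa using a), f.injective (by simpa using b),
      f.injective (by simpa using c)⟩
  obtain ⟨μ, v, hv, hμ⟩ := exists_eigenvector (x.map f)
  obtain ⟨σ, hσ, hne⟩ := hρ H hH v hv
  have hc : x.map f * (ρ σ).map f = (ρ σ).map f * x.map f := by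
    rw [← Matrix.map_mul, ← Matrix.map_mul, hx σ hσ]
  obtain ⟨c, hc⟩ := exists_smul_of_eigenvector hsc' hv hμ
    (show x.map f *ᵥ ((ρ σ).map f *ᵥ v) = μ • ((ρ σ).map f *ᵥ v) by
      rw [mulVec_mulVec, hc, ← mulVec_mulVec, hμ, mulVec_smul])
  exact hne c hc

/-- `ρ g * ρ g⁻¹ = 1`. -/
theorem rho_mul_inv (ρ : G →* M2 k) (g : G) : ρ g * ρ g⁻¹ = 1 := by
  rw [← map_mul, mul_inv_cancel, map_one]

/-- `ρ g⁻¹ * ρ g = 1`. -/
theorem rho_inv_mul (ρ : G →* M2 k) (g : G) : ρ g⁻¹ * ρ g = 1 := by
  rw [← map_mul, inv_mul_cancel, map_one]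

/-- The determinant of `ρ g` is nonzero. -/
theorem det_rho_ne_zero (ρ : G →* M2 k) (g : G) : (ρ g).det ≠ 0 :=
  left_ne_zero_of_mul_eq_one (by rw [← det_mul, rho_mul_inv, det_one])

/-- Conjugation by the group. -/
def conjAct (ρ : G →* M2 k) (g : G) (x : M2 k) : M2 k := ρ g * x * ρ g⁻¹

theorem conjAct_mul (g h : G) (x : M2 k) :
    conjAct ρ (g * h) x = conjAct ρ g (conjAct ρ h x) := by
  simp [conjAct, mul_assoc, _root_.mul_inv_rev]

theorem conjAct_one (x : M2 k) : conjAct ρ 1 x = x := by simp [conjAct]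

theorem trace_conjAct (g : G) (x : M2 k) : (conjAct ρ g x).trace = x.trace := by
  rw [conjAct, trace_mul_cycle, rho_inv_mul, one_mul]

theorem det_conjAct (g : G) (x : M2 k) : (conjAct ρ g x).det = x.det := by
  rw [conjAct, det_mul_right_comm, rho_mul_inv, one_mul]

theorem conjAct_smul (g : G) (c : k) (x : M2 k) :
    conjAct ρ g (c • x) = c • conjAct ρ g x := by
  simp [conjAct]

/-- There is no stable line in the adjoint representation. -/
theorem not_forall_conjAct_eq_smul (h2 : (2 : k) ≠ 0) (hρ : NoStableLine ρ) {x : M2 k}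
    (hx : x ≠ 0) (hxt : x.trace = 0) : ¬ ∀ g, ∃ c : k, conjAct ρ g x = c • x := by
  intro h
  have hns := not_isScalar_of_trace h2 hx hxt
  have hcomm : ∀ g, ∃ c : k, ρ g * x = c • (x * ρ g) := by
    intro g
    obtain ⟨c, hc⟩ := h g
    refine ⟨c, ?_⟩
    rw [← smul_mul_assoc, ← hc, conjAct, mul_assoc, rho_inv_mul, mul_one]
  by_cases hd : x.det = 0
  · obtain ⟨v, hv, hv0⟩ := exists_mulVec_eq_zero_iff.2 hd
    obtain ⟨σ, -, hne⟩ := mulVec_stable hρ (.inl rfl) v hv
    obtain ⟨c, hc⟩ := h σ⁻¹
    have hw : x *ᵥ (ρ σ *ᵥ v) = 0 := by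
      have hx' : x * ρ σ = ρ σ * (c • x) := by
        rw [← hc, conjAct, inv_inv, ← mul_assoc, ← mul_assoc, rho_mul_inv, one_mul]
      rw [mulVec_mulVec, hx', ← mulVec_mulVec, smul_mulVec, hv0, smul_zero, mulVec_zero]
    obtain ⟨a, ha⟩ := exists_smul_of_eigenvector hns hv (μ := (0 : k))
      (by rw [hv0, zero_smul]) (by rw [hw, zero_smul])
    exact hne a ha
  · have hpm : ∀ g, conjAct ρ g x = x ∨ conjAct ρ g x = -x := by
      intro g
      obtain ⟨c, hc⟩ := h g
      have hdet : (c • x).det = x.det := hc ▸ det_conjAct g x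
      rw [det_smul, Fintype.card_fin, mul_eq_right₀ hd, sq_eq_one_iff] at hdet
      rcases hdet with rfl | rfl
      · exact .inl (by rw [hc, one_smul])
      · exact .inr (by rw [hc, neg_one_smul])
    let H : Subgroup G :=
      { carrier := {g | conjAct ρ g x = x}
        one_mem' := conjAct_one x
        mul_mem' := fun {a b} ha hb => by
          show conjAct ρ (a * b) x = x
          rw [conjAct_mul, hb, ha]
        inv_mem' := fun {a} ha => by
          show conjAct ρ a⁻¹ x = x
          nth_rw 1 [← ha]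
          rw [← conjAct_mul, inv_mul_cancel, conjAct_one] }
    have hH : H = ⊤ ∨ H.index = 2 := by
      by_cases hall : ∀ g, g ∈ H
      · exact .inl (eq_top_iff.2 fun g _ => hall g)
      · push Not at hall
        obtain ⟨a, ha⟩ := hall
        have hane : conjAct ρ a x = -x := (hpm a).resolve_left ha
        refine .inr (Subgroup.index_eq_two_iff.2 ⟨a, fun b => ?_⟩)
        have hnx : -x ≠ x := fun e => hx (by
          have : (2 : k) • x = 0 := by rw [two_smul]; nth_rw 1 [← e]; rw [neg_add_cancel]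
          exact (smul_eq_zero.1 this).resolve_left h2)
        rcases hpm b with hb | hb
        · refine .inr ⟨hb, fun hba => hnx ?_⟩
          have e : conjAct ρ (b * a) x = x := hba
          rw [conjAct_mul, hane, ← neg_one_smul k x, conjAct_smul, hb, neg_one_smul] at e
          exact e
        · refine .inl ⟨?_, fun hb' => hnx (hb.symm.trans hb')⟩
          show conjAct ρ (b * a) x = x
          rw [conjAct_mul, hane, ← neg_one_smul k x, conjAct_smul, hb, neg_one_smul, neg_neg]
    refine hns (isScalar_of_commute hρ hH fun g (hg : conjAct ρ g x = x) => ?_)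
    nth_rw 2 [← hg]
    rw [conjAct, mul_assoc, rho_inv_mul, mul_one]

/-- The adjoint representation pairs nontrivially with every nonscalar matrix. -/
theorem exists_trace_conjAct_ne_zero (h2 : (2 : k) ≠ 0) (hρ : NoStableLine ρ) {x d : M2 k}
    (hx : x ≠ 0) (hxt : x.trace = 0) (hd : ¬ IsScalar d) :
    ∃ g, (conjAct ρ g x * d).trace ≠ 0 := by
  by_contra hcon
  push Not at hcon
  set d0 : M2 k := d - (d.trace / 2) • 1 with hd0def
  have hd0t : d0.trace = 0 := by
    rw [hd0def, trace_sub, trace_smul, trace_one, Fintype.card_fin, smul_eq_mul]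
    field_simp
    push_cast
    ring
  have hd0 : d0 ≠ 0 := fun e =>
    hd ((isScalar_iff_exists d).2 ⟨d.trace / 2, by rwa [← sub_eq_zero]⟩)
  have horth : ∀ h g, (conjAct ρ h x * conjAct ρ g d0).trace = 0 := by
    intro h g
    have e : (conjAct ρ h x * conjAct ρ g d0).trace =
        (conjAct ρ (g⁻¹ * h) x * d0).trace := by
      rw [← trace_conjAct (ρ := ρ) g⁻¹ (conjAct ρ h x * conjAct ρ g d0), conjAct_mul]
      congr 1
      simp only [conjAct, inv_inv, mul_assoc, rho_inv_mul, mul_one]
    rw [e, hd0def, mul_sub, trace_sub, mul_smul_comm, mul_one, trace_smul, trace_conjAct, hxt,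
      hcon, smul_zero, sub_zero]
  by_cases hline : ∀ g, ∃ c : k, conjAct ρ g d0 = c • d0
  · exact not_forall_conjAct_eq_smul h2 hρ hd0 hd0t hline
  push Not at hline
  obtain ⟨g1, hg1⟩ := hline
  have hw : d0 * conjAct ρ g1 d0 - conjAct ρ g1 d0 * d0 ≠ 0 := by
    intro e
    obtain ⟨c, hc⟩ := exists_smul_of_commute h2 hd0 hd0t (by rw [trace_conjAct, hd0t])
      (sub_eq_zero.1 e).symm
    exact hg1 c hc
  have hmul : ∀ h, ∃ c : k, conjAct ρ h x =
      c • (d0 * conjAct ρ g1 d0 - conjAct ρ g1 d0 * d0) := fun h =>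
    orth_eq_smul hd0t (by rw [trace_conjAct, hd0t]) (by rw [trace_conjAct, hxt])
      (by simpa [conjAct_one] using horth h 1) (horth h g1) hw
  obtain ⟨c0, hc0⟩ := hmul 1
  rw [conjAct_one] at hc0
  have hc0' : c0 ≠ 0 := fun e => hx (by rw [hc0, e, zero_smul])
  refine not_forall_conjAct_eq_smul h2 hρ hx hxt fun g => ?_
  obtain ⟨c, hc⟩ := hmul g
  exact ⟨c / c0, by rw [hc, hc0, smul_smul, div_mul_cancel₀ _ hc0']⟩

/-- The Tate twisted adjoint representation has no invariants. -/
theorem eq_zero_of_fixed (h2 : (2 : k) ≠ 0) (hρ : NoStableLine ρ) {x : M2 k}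
    (hxt : x.trace = 0) (h : ∀ g, (ρ g).det • conjAct ρ g x = x) : x = 0 := by
  by_contra hx
  exact not_forall_conjAct_eq_smul h2 hρ hx hxt fun g =>
    ⟨((ρ g).det)⁻¹, by rw [eq_inv_smul_iff₀ (det_rho_ne_zero ρ g), h g]⟩

/-- A matrix of determinant one and trace of square four, minus half its trace, is nilpotent. -/
theorem det_sub_half (h2 : (2 : k) ≠ 0) {d : M2 k} (hd : d.det = 1) (ht : d.trace ^ 2 = 4) :
    (d - (d.trace / 2) • 1).det = 0 ∧ (d - (d.trace / 2) • 1).trace = 0 := by
  constructor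
  · simp [det_fin_two, trace_fin_two] at hd ht ⊢
    field_simp
    linear_combination 4 * hd - ht
  · rw [trace_sub, trace_smul, trace_one, Fintype.card_fin, smul_eq_mul]
    field_simp
    push_cast
    ring

/-- A normal subgroup containing the commutators has elements with distinct eigenvalues. -/
theorem exists_regular (h2 : (2 : k) ≠ 0) (hρ : NoStableLine ρ) (H : Subgroup G)
    (hc : ∀ a b : G, a * b * a⁻¹ * b⁻¹ ∈ H) (hdet : ∀ h ∈ H, (ρ h).det = 1) :
    ∃ h ∈ H, (ρ h).trace ^ 2 ≠ 4 := by
  by_contra hcon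
  push Not at hcon
  have hnorm : ∀ g, ∀ h ∈ H, g * h * g⁻¹ ∈ H := fun g h hh => by
    simpa using H.mul_mem (hc g h) hh
  by_cases hsc : ∀ h ∈ H, IsScalar (ρ h)
  · have hpm : ∀ a b, conjAct ρ a (ρ b) = ρ b ∨ conjAct ρ a (ρ b) = -ρ b := by
      intro a b
      obtain ⟨u, hu⟩ := (isScalar_iff_exists _).1 (hsc _ (hc a b))
      have hu2 := hdet _ (hc a b)
      rw [hu, det_smul, det_one, mul_one, Fintype.card_fin, sq_eq_one_iff] at hu2
      have e : conjAct ρ a (ρ b) = u • ρ b := by
        have : conjAct ρ a (ρ b) = ρ (a * b * a⁻¹ * b⁻¹) * ρ b := by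
          simp [conjAct, mul_assoc, ← map_mul]
        rw [this, hu, smul_mul_assoc, one_mul]
      rcases hu2 with rfl | rfl
      · exact .inl (by rw [e, one_smul])
      · exact .inr (by rw [e, neg_one_smul])
    by_cases hab : ∀ a b, conjAct ρ a (ρ b) = ρ b
    · by_cases hall : ∀ b, IsScalar (ρ b)
      · have hE : ¬ IsScalar (!![0, 1; 0, 0] : M2 k) := by simp [IsScalar]
        refine hE (isScalar_of_commute hρ (.inl rfl) fun σ _ => ?_)
        obtain ⟨u, hu⟩ := (isScalar_iff_exists _).1 (hall σ)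
        rw [hu, smul_mul_assoc, mul_smul_comm, one_mul, mul_one]
      · push Not at hall
        obtain ⟨b, hb⟩ := hall
        refine hb (isScalar_of_commute hρ (.inl rfl) fun σ _ => ?_)
        nth_rw 2 [← hab σ b]
        rw [conjAct, mul_assoc, rho_inv_mul, mul_one]
    · push Not at hab
      obtain ⟨a, b, hne⟩ := hab
      have hneg := (hpm a b).resolve_left hne
      have hbt : (ρ b).trace = 0 := by
        have e := trace_conjAct (ρ := ρ) a (ρ b)
        rw [hneg, trace_neg] at e
        exact (mul_eq_zero.1 (by linear_combination -e : (2 : k) * (ρ b).trace = 0)).resolve_left h2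
      refine not_forall_conjAct_eq_smul h2 hρ (fun e => ?_) hbt fun g => ?_
      · exact det_rho_ne_zero ρ b (by rw [e, det_zero])
      · rcases hpm g b with e | e
        · exact ⟨1, by rw [e, one_smul]⟩
        · exact ⟨-1, by rw [e, neg_one_smul]⟩
  push Not at hsc
  obtain ⟨h, hh, hhns⟩ := hsc
  set ε : k := (ρ h).trace / 2 with hε
  set N : M2 k := ρ h - ε • 1 with hNdef
  obtain ⟨hNd, hNt⟩ := det_sub_half h2 (hdet h hh) (hcon h hh)
  rw [← hε, ← hNdef] at hNd hNt
  have hN : N ≠ 0 := fun e =>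
    hhns ((isScalar_iff_exists _).2 ⟨ε, by rwa [← sub_eq_zero]⟩)
  by_cases hline : ∀ g, ∃ c : k, conjAct ρ g N = c • N
  · exact not_forall_conjAct_eq_smul h2 hρ hN hNt hline
  push Not at hline
  obtain ⟨g, hg⟩ := hline
  set N' := conjAct ρ g N with hN'
  have hN't : N'.trace = 0 := by rw [hN', trace_conjAct, hNt]
  set t := (N * N').trace with ht
  have htne : t ≠ 0 := trace_mul_ne_zero hN hNt hNd hN't (by rw [hN', det_conjAct, hNd]) hg
  have hε2 : ε ^ 2 = 1 := by rw [hε, div_pow, hcon h hh]; field_simp; norm_num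
  have hN2 : N * N = 0 := by
    have e11 : N 1 1 = -N 0 0 := eq_neg_of_add_eq_zero_right (by rw [← trace_fin_two]; exact hNt)
    have hd' := hNd
    rw [det_fin_two, e11] at hd'
    refine ext₂ ?_ ?_ ?_ ?_ <;> simp only [mul_apply, Fin.sum_univ_two, Matrix.zero_apply, e11]
    · linear_combination -hd'
    · ring
    · ring
    · linear_combination -hd'
  have e1 : ρ h = ε • 1 + N := by rw [hNdef]; abel
  have e2 : ρ (g * h * g⁻¹) = ε • 1 + N' := by
    rw [map_mul, map_mul, e1, hN', conjAct, mul_add, add_mul, mul_smul_comm, smul_mul_assoc,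
      mul_one, rho_mul_inv]
  have t1 := hcon _ (H.mul_mem hh (hnorm g h hh))
  have t2 := hcon _ (H.mul_mem (H.mul_mem hh hh) (hnorm g h hh))
  rw [map_mul, e1, e2] at t1
  rw [map_mul, map_mul, e1, e2] at t2
  have v1 : ((ε • 1 + N) * (ε • 1 + N') : M2 k).trace = 2 + t := by
    simp only [add_mul, mul_add, smul_mul_assoc, mul_smul_comm, one_mul, mul_one, trace_add,
      trace_smul, hNt, hN't, ← ht, trace_one, Fintype.card_fin, smul_eq_mul]
    push_cast
    linear_combination 2 * hε2
  have v2 : ((ε • 1 + N) * (ε • 1 + N) * (ε • 1 + N') : M2 k).trace = ε * (2 + 2 * t) := by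
    simp only [add_mul, mul_add, smul_mul_assoc, mul_smul_comm, one_mul, mul_one, trace_add,
      trace_smul, hNt, hN't, ← ht, trace_one, Fintype.card_fin, smul_eq_mul, hN2, zero_mul,
      trace_zero, smul_add, smul_zero]
    push_cast
    linear_combination 2 * ε * hε2
  rw [v1] at t1
  rw [v2, mul_pow, hε2, one_mul] at t2
  have a1 : t * (t + 4) = 0 := by linear_combination t1
  have a2 : (4 * t) * (t + 2) = 0 := by linear_combination t2
  have b1 : t = -4 := eq_neg_of_add_eq_zero_left ((mul_eq_zero.1 a1).resolve_left htne)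
  have h4 : (4 : k) ≠ 0 := fun e =>
    h2 (pow_eq_zero_iff (n := 2) (by norm_num) |>.1 (by linear_combination e))
  have b2 := (mul_eq_zero.1 a2).resolve_left (mul_ne_zero h4 htne)
  exact h2 (by linear_combination -b2 + b1)

end Fermat.Agent.TWElement
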