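import Fermat.Agent.TWElement.Count
import Fermat.Agent.TWElement.Adjoint
import Mathlib.GroupTheory.Sylow
import Mathlib.GroupTheory.Coset.Basic
import Mathlib.Algebra.CharP.Reduced
import Mathlib.FieldTheory.Finite.Basic
import Mathlib.Algebra.Field.Subfield.Basic

/-!
# Vanishing of `H¹` of a finite matrix group on the twisted adjoint representation

`exists_coboundary`: for a finite subgroup of `GL₂(k)` without stable line, `k` finite of odd
characteristic `p`, with some determinant which is not the square of an element of the prime field,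
every cocycle with values in `ad⁰ ⊗ det` is a coboundary.
-/

set_option autoImplicit false

open Matrix

namespace Fermat.Agent.TWElement

variable {k : Type*} [Field k]

/-- An additive map on a finite additive subgroup which is semilinear up to a derivation for many
scalars is linear. -/
theorem exists_eq_mul_of_twisted [Finite k] (A : Set k) (hA0 : (0 : k) ∈ A)
    (hAadd : ∀ a ∈ A, ∀ b ∈ A, a + b ∈ A) (ω : k → k)
    (hω : ∀ a ∈ A, ∀ b ∈ A, ω (a + b) = ω a + ω b)
    (M : Set k) (hM0 : (0 : k) ∉ M)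
    (hM : ∀ l ∈ M, ∃ c : k, ∀ a ∈ A, l * a ∈ A ∧ ω (l * a) = l * ω a + c * a)
    (hcard : A.ncard ≤ 2 * M.ncard + 1) : ∃ c : k, ∀ a ∈ A, ω a = c * a := by
  classical
  have hz : ω 0 = 0 := by simpa using hω 0 hA0 0 hA0
  have hAnsmul : ∀ (n : ℕ), ∀ a ∈ A, (n : k) * a ∈ A ∧ ω ((n : k) * a) = (n : k) * ω a := by
    intro n a ha
    induction n with
    | zero => simp [hA0, hz]
    | succ n ih =>
      push_cast
      rw [add_mul, one_mul]
      exact ⟨hAadd _ ih.1 _ ha, by rw [hω _ ih.1 _ ha, ih.2]; ring⟩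
  obtain ⟨p, hp⟩ := CharP.exists k
  have : Fact p.Prime := ⟨CharP.char_is_prime k p⟩
  let R : Subring k :=
    { carrier := {l | ∃ c : k, ∀ a ∈ A, l * a ∈ A ∧ ω (l * a) = l * ω a + c * a}
      one_mem' := ⟨0, fun a ha => by simp [ha]⟩
      zero_mem' := ⟨0, fun a _ => by simp [hA0, hz]⟩
      add_mem' := fun {x y} hx hy => by
        obtain ⟨c, hc⟩ := hx
        obtain ⟨e, he⟩ := hy
        refine ⟨c + e, fun a ha => ?_⟩
        rw [add_mul]
        exact ⟨hAadd _ (hc a ha).1 _ (he a ha).1,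
          by rw [hω _ (hc a ha).1 _ (he a ha).1, (hc a ha).2, (he a ha).2]; ring⟩
      mul_mem' := fun {x y} hx hy => by
        obtain ⟨c, hc⟩ := hx
        obtain ⟨e, he⟩ := hy
        refine ⟨x * e + c * y, fun a ha => ?_⟩
        rw [mul_assoc]
        exact ⟨(hc _ (he a ha).1).1, by rw [(hc _ (he a ha).1).2, (he a ha).2]; ring⟩
      neg_mem' := fun {x} hx => by
        obtain ⟨c, hc⟩ := hx
        have h := fun a ha => hAnsmul (p - 1) (x * a) (hc a ha).1
        have hp1 : ((p - 1 : ℕ) : k) = -1 := by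
          rw [Nat.cast_sub (Fact.out (p := p.Prime)).one_le, CharP.cast_eq_zero, Nat.cast_one,
            zero_sub]
        simp only [hp1, neg_mul, one_mul] at h
        refine ⟨-c, fun a ha => ?_⟩
        rw [neg_mul]
        exact ⟨(h a ha).1, by rw [(h a ha).2, (hc a ha).2]; ring⟩ }
  by_cases hA : A ⊆ {0}
  · exact ⟨0, fun a ha => by rw [show a = 0 from hA ha, hz, mul_zero]⟩
  obtain ⟨a0, ha0, ha0'⟩ := Set.not_subset.1 hA
  rw [Set.mem_singleton_iff] at ha0'
  have hMR : insert 0 M ⊆ (R : Set k) := Set.insert_subset R.zero_mem fun l hl => hM l hl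
  have hRcard : M.ncard + 1 ≤ (R : Set k).ncard := by
    rw [← Set.ncard_insert_of_notMem hM0]; exact Set.ncard_le_ncard hMR
  have hinv : ∀ x ∈ R, x⁻¹ ∈ R := by
    intro x hx
    cases nonempty_fintype k
    by_cases hx0 : x = 0
    · rw [hx0, _root_.inv_zero]; exact R.zero_mem
    have h : x ^ (Fintype.card k - 2) = x⁻¹ := by
      refine eq_inv_of_mul_eq_one_left ?_
      rw [← pow_succ, show Fintype.card k - 2 + 1 = Fintype.card k - 1 by
        have := Fintype.one_lt_card (α := k); omega]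
      exact FiniteField.pow_card_sub_one_eq_one x hx0
    rw [← h]; exact R.pow_mem hx _
  have hfull : ∀ a ∈ A, ∃ x ∈ R, a = x * a0 := by
    by_contra hcon
    push Not at hcon
    obtain ⟨a1, ha1, ha1'⟩ := hcon
    have hinj : Set.InjOn (fun xy : k × k => xy.1 * a0 + xy.2 * a1)
        ((R : Set k) ×ˢ (R : Set k)) := by
      rintro ⟨x, y⟩ ⟨hx, hy⟩ ⟨x', y'⟩ ⟨hx', hy'⟩ e
      simp only [SetLike.mem_coe] at hx hy hx' hy'
      simp only at e
      by_cases hyy : y = y'
      · subst hyy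
        rw [mul_right_cancel₀ ha0' (add_right_cancel e)]
      · refine absurd ?_ (ha1' ((x' - x) * (y - y')⁻¹)
          (R.mul_mem (R.sub_mem hx' hx) (hinv _ (R.sub_mem hy hy'))))
        have hne : y - y' ≠ 0 := sub_ne_zero.2 hyy
        field_simp
        linear_combination e
    have hmaps : (fun xy : k × k => xy.1 * a0 + xy.2 * a1) '' ((R : Set k) ×ˢ (R : Set k)) ⊆ A := by
      rintro _ ⟨⟨x, y⟩, ⟨hx, hy⟩, rfl⟩
      obtain ⟨c, hc⟩ := hx
      obtain ⟨e, he⟩ := hy
      exact hAadd _ (hc a0 ha0).1 _ (he a1 ha1).1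
    have h1 := Set.ncard_le_ncard hmaps
    rw [hinj.ncard_image, Set.ncard_prod] at h1
    have h2 : 2 ≤ (R : Set k).ncard :=
      (Set.one_lt_ncard).2 ⟨0, R.zero_mem, 1, R.one_mem, zero_ne_one⟩
    nlinarith
  refine ⟨ω a0 / a0, fun a ha => ?_⟩
  obtain ⟨x, hx, rfl⟩ := hfull a ha
  obtain ⟨c, hc⟩ := hx
  -- powers of `x` show that the derivation vanishes
  have hpow : ∀ n : ℕ, x ^ n * a0 ∈ A ∧
      ω (x ^ n * a0) = x ^ n * ω a0 + n * x ^ (n - 1) * c * a0 := by
    intro n
    induction n with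
    | zero => simp [ha0]
    | succ n ih =>
      rw [pow_succ', mul_assoc]
      refine ⟨(hc _ ih.1).1, ?_⟩
      rw [(hc _ ih.1).2, ih.2]
      rcases n with _ | n
      · simp
      · simp only [Nat.add_sub_cancel]
        push_cast
        ring
  cases nonempty_fintype k
  have h := (hpow (Fintype.card k)).2
  rw [FiniteField.pow_card, FiniteField.cast_card_eq_zero] at h
  rw [h]
  field_simp
  ring

variable {G : Type*} [Group G] {ρ : G →* M2 k}

/-- The Tate twist of the adjoint action. -/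
def twist (ρ : G →* M2 k) (g : G) (X : M2 k) : M2 k := ρ g * X * (ρ g).adjugate

/-- Cocycles for the twisted adjoint action. -/
def IsCocycle (ρ : G →* M2 k) (z : G → M2 k) : Prop :=
  (∀ a b, z (a * b) = z a + twist ρ a (z b)) ∧ ∀ a, (z a).trace = 0

/-- The twisted action is multiplicative. -/
theorem twist_mul (a b : G) (X : M2 k) : twist ρ (a * b) X = twist ρ a (twist ρ b X) := by
  simp [twist, adjugate_mul_distrib, mul_assoc]

/-- The identity acts trivially. -/
theorem twist_one (X : M2 k) : twist ρ 1 X = X := by simp [twist]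

/-- The twisted action is additive. -/
theorem twist_add (a : G) (X Y : M2 k) : twist ρ a (X + Y) = twist ρ a X + twist ρ a Y := by
  simp [twist, mul_add, add_mul]

/-- The twisted action is linear. -/
theorem twist_smul (a : G) (c : k) (X : M2 k) : twist ρ a (c • X) = c • twist ρ a X := by
  simp [twist]

theorem twist_sub (a : G) (X Y : M2 k) : twist ρ a (X - Y) = twist ρ a X - twist ρ a Y := by
  simp [twist, mul_sub, sub_mul]

theorem trace_twist (a : G) {X : M2 k} (hX : X.trace = 0) : (twist ρ a X).trace = 0 := by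
  rw [twist, trace_mul_cycle, adjugate_mul, smul_mul_assoc, one_mul, trace_smul, hX, smul_zero]

/-- A cocycle vanishes at `1`. -/
theorem IsCocycle.map_one {z : G → M2 k} (hz : IsCocycle ρ z) : z 1 = 0 := by
  have h := hz.1 1 1
  rw [one_mul, twist_one] at h
  exact right_eq_add.1 h

theorem IsCocycle.add_coboundary {z : G → M2 k} (hz : IsCocycle ρ z) {X : M2 k}
    (hX : X.trace = 0) : IsCocycle ρ (fun g => z g + (twist ρ g X - X)) := by
  refine ⟨fun a b => ?_, fun a => ?_⟩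
  · simp only [hz.1 a b, twist_add, twist_sub, ← twist_mul]
    abel
  · rw [trace_add, trace_sub, hz.2, trace_twist a hX, hX]; simp

/-- Restriction to a subgroup of index prime to the characteristic is injective. -/
theorem exists_coboundary_of_index [Finite G] {z : G → M2 k} (hz : IsCocycle ρ z) (P : Subgroup G)
    (hidx : (P.index : k) ≠ 0) (hP : ∀ s ∈ P, z s = 0) :
    ∃ X : M2 k, X.trace = 0 ∧ ∀ g, z g = twist ρ g X - X := by
  classical
  have hcongr : ∀ g, ∀ s ∈ P, z (g * s) = z g := fun g s hs => by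
    rw [hz.1, hP s hs]; simp [twist]
  let zbar : G ⧸ P → M2 k := Quotient.lift z fun a b h => by
    rw [show b = a * (a⁻¹ * b) by group, hcongr a _ (QuotientGroup.leftRel_apply.1 h)]
  cases nonempty_fintype (G ⧸ P)
  set x : M2 k := ∑ c, zbar c with hx
  refine ⟨(-(P.index : k)⁻¹) • x, ?_, fun g => ?_⟩
  · rw [trace_smul, hx, trace_sum, Finset.sum_eq_zero fun c _ => ?_, smul_zero]
    induction c using Quotient.inductionOn' with
    | h a => exact hz.2 a
  · have h : ∀ c, zbar (g • c) = z g + twist ρ g (zbar c) := fun c => by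
      induction c using Quotient.inductionOn' with
      | h a => exact hz.1 g a
    have hsum : x = (P.index : k) • z g + twist ρ g x := by
      conv_lhs => rw [hx, ← Equiv.sum_comp (MulAction.toPerm g) zbar]
      simp only [MulAction.toPerm_apply, h, Finset.sum_add_distrib, Finset.sum_const,
        Finset.card_univ, ← Nat.card_eq_fintype_card, Subgroup.index, Nat.cast_smul_eq_nsmul]
      congr 1
      simp [twist, hx, Finset.mul_sum, Finset.sum_mul]
    rw [twist_smul, ← smul_sub, show twist ρ g x - x = -((P.index : k) • z g) by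
      nth_rw 2 [hsum]; abel, smul_neg, neg_smul, neg_neg, smul_smul, inv_mul_cancel₀ hidx, one_smul]

/-- Entries of the twisted action of upper triangular matrices. -/
theorem twist_upper {t : G} (ht : t ∈ upper ρ) {X : M2 k} (hX : X.trace = 0) :
    twist ρ t X 1 0 = ρ t 1 1 ^ 2 * X 1 0 ∧
    twist ρ t X 0 0 = ρ t 0 0 * ρ t 1 1 * X 0 0 + ρ t 1 1 * ρ t 0 1 * X 1 0 ∧
    twist ρ t X 0 1 = ρ t 0 0 ^ 2 * X 0 1 - 2 * ρ t 0 0 * ρ t 0 1 * X 0 0
      - ρ t 0 1 ^ 2 * X 1 0 := by
  have h11 : X 1 1 = -X 0 0 := eq_neg_of_add_eq_zero_right (by rw [← trace_fin_two]; exact hX)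
  rw [mem_upper] at ht
  refine ⟨?_, ?_, ?_⟩ <;>
    simp [twist, adjugate_fin_two, mul_apply, Fin.sum_univ_two, ht, h11] <;> ring

theorem twist_unip {u : G} (hu : u ∈ unip ρ) {X : M2 k} (hX : X.trace = 0) :
    twist ρ u X 1 0 = X 1 0 ∧
    twist ρ u X 0 0 = X 0 0 + ρ u 0 1 * X 1 0 ∧
    twist ρ u X 0 1 = X 0 1 - 2 * ρ u 0 1 * X 0 0 - ρ u 0 1 ^ 2 * X 1 0 := by
  obtain ⟨h1, h2, h3⟩ := twist_upper (unip_le_upper ρ hu) hX
  rw [h1, h2, h3, hu.2.1, hu.2.2]
  refine ⟨?_, ?_, ?_⟩ <;> ring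

theorem upper_of_conj {g u u' : G} (hu : u ∈ unip ρ) (hu01 : ρ u 0 1 ≠ 0) (hu' : u' ∈ unip ρ)
    (h : g * u = u' * g) : g ∈ upper ρ := by
  have e := congrFun (congrFun (congrArg ρ h) 1) 1
  simp [mul_apply, Fin.sum_univ_two, hu.2.2, hu'.1, hu'.2.2] at e
  exact e.resolve_right hu01

/-! ### The unipotent group under the torus -/

/-- The upper right entries of the upper unitriangular elements. -/
def unipEntries (ρ : G →* M2 k) : Set k := (fun x => ρ x 0 1) '' (unip ρ : Set G)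

/-- The squares of the upper left entries of the upper triangular elements of determinant one. -/
def torusSquares (ρ : G →* M2 k) : Set k :=
  (fun s => ρ s 0 0 ^ 2) '' {s | s ∈ upper ρ ∧ (ρ s).det = 1}

/-- The elements of determinant one. -/
abbrev detKer (ρ : G →* M2 k) : Subgroup G := ((Matrix.detMonoidHom).comp ρ).toHomUnits.ker

theorem mem_detKer (ρ : G →* M2 k) {x : G} : x ∈ detKer ρ ↔ (ρ x).det = 1 := by
  rw [detKer, MonoidHom.mem_ker, Units.ext_iff]
  rfl

theorem det_upper {t : G} (ht : t ∈ upper ρ) : (ρ t).det = ρ t 0 0 * ρ t 1 1 := by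
  rw [det_fin_two, (mem_upper ρ).1 ht, mul_zero, sub_zero]

theorem diag₁_ne_zero {t : G} (ht : t ∈ upper ρ) : ρ t 1 1 ≠ 0 := fun e =>
  det_rho_ne_zero ρ t (by rw [det_upper ht, e, mul_zero])

/-- An upper unitriangular element has determinant one and trace two. -/
theorem det_trace_unip {x : G} (hx : x ∈ unip ρ) : (ρ x).det = 1 ∧ (ρ x).trace = 2 :=
  ⟨by rw [det_upper (unip_le_upper ρ hx), hx.2.1, hx.2.2, one_mul],
    by rw [trace_fin_two, hx.2.1, hx.2.2]; norm_num⟩

theorem unip_le_detKer (ρ : G →* M2 k) : unip ρ ≤ detKer ρ := fun _ hx =>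
  (mem_detKer ρ).2 (det_trace_unip hx).1

/-- An upper triangular element of determinant one and trace two is upper unitriangular. -/
theorem mem_unip_of_det_trace {x : G} (hx : x ∈ upper ρ) (hd : (ρ x).det = 1)
    (ht : (ρ x).trace = 2) : x ∈ unip ρ := by
  rw [det_upper hx] at hd
  rw [trace_fin_two] at ht
  have h00 : ρ x 0 0 = 1 :=
    sub_eq_zero.1 (sq_eq_zero_iff.1 (by linear_combination -hd + ρ x 0 0 * ht))
  exact ⟨hx, h00, by linear_combination ht - h00⟩

/-- On the unipotent elements the upper right entry is additive. -/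
theorem unip_mul_entry {x y : G} (hx : x ∈ unip ρ) (hy : y ∈ unip ρ) :
    ρ (x * y) 0 1 = ρ x 0 1 + ρ y 0 1 := by
  rw [(upper_mul_entries ρ (unip_le_upper ρ hx) (unip_le_upper ρ hy)).2.2, hx.2.1, hy.2.2]
  ring

theorem unip_eq_one (hinj : Function.Injective ρ) {x : G} (hx : x ∈ unip ρ)
    (h : ρ x 0 1 = 0) : x = 1 :=
  hinj (by
    rw [map_one]
    exact ext₂ (by simpa using hx.2.1) (by simpa using h) (by simpa using hx.1)
      (by simpa using hx.2.2))

/-- An upper unitriangular element is determined by its upper right entry. -/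
theorem unip_injOn (hinj : Function.Injective ρ) :
    Set.InjOn (fun x => ρ x 0 1) (unip ρ : Set G) := by
  intro x hx y hy e
  refine inv_mul_eq_one.1 (unip_eq_one hinj ((unip ρ).mul_mem ((unip ρ).inv_mem hx) hy) ?_)
  have h := unip_mul_entry ((unip ρ).inv_mem hx) hx
  rw [inv_mul_cancel, map_one] at h
  rw [unip_mul_entry ((unip ρ).inv_mem hx) hy, ← show ρ x 0 1 = ρ y 0 1 from e, ← h]
  simp

theorem unip_comm (hinj : Function.Injective ρ) {x y : G} (hx : x ∈ unip ρ) (hy : y ∈ unip ρ) :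
    x * y = y * x :=
  unip_injOn hinj ((unip ρ).mul_mem hx hy) ((unip ρ).mul_mem hy hx)
    (by simp only; rw [unip_mul_entry hx hy, unip_mul_entry hy hx, add_comm])

/-- Upper triangular elements normalise the unipotent ones, scaling the upper right entry by the
ratio of the diagonal entries. -/
theorem conj_mem_unip {t x : G} (ht : t ∈ upper ρ) (hx : x ∈ unip ρ) :
    t * x * t⁻¹ ∈ unip ρ ∧ ρ (t * x * t⁻¹) 0 1 * ρ t 1 1 = ρ t 0 0 * ρ x 0 1 := by
  have hxu := unip_le_upper ρ hx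
  let T : upper ρ := ⟨t, ht⟩
  let Xu : upper ρ := ⟨x, hxu⟩
  have e : ∀ D : upper ρ →* k, D Xu = 1 → D (T * Xu * T⁻¹) = 1 := fun D hD => by
    rw [map_mul, map_mul, hD, mul_one, ← map_mul, mul_inv_cancel, map_one]
  have hmem : t * x * t⁻¹ ∈ unip ρ :=
    ⟨(T * Xu * T⁻¹).2, e (diag₀ ρ) hx.2.1, e (diag₁ ρ) hx.2.2⟩
  refine ⟨hmem, ?_⟩
  have h := congrArg (fun g => ρ g 0 1) (show t * x * t⁻¹ * t = t * x by group)
  simp only [(upper_mul_entries ρ (unip_le_upper ρ hmem) ht).2.2,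
    (upper_mul_entries ρ ht hxu).2.2, hmem.2.1, hx.2.2] at h
  linear_combination h

/-- A cocycle is compatible with the relation `x' t = t x`. -/
theorem IsCocycle.of_conj {w : G → M2 k} (hw : IsCocycle ρ w) {t x x' : G}
    (h : x' * t = t * x) : w x' + twist ρ x' (w t) = w t + twist ρ t (w x) := by
  rw [← hw.1, ← hw.1, h]

/-- The entries of a cocycle on a product of unipotent elements. -/
theorem IsCocycle.unip_mul {w : G → M2 k} (hw : IsCocycle ρ w) {x : G} (hx : x ∈ unip ρ) (y : G) :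
    w (x * y) 1 0 = w x 1 0 + w y 1 0 ∧
    w (x * y) 0 0 = w x 0 0 + w y 0 0 + ρ x 0 1 * w y 1 0 ∧
    w (x * y) 0 1 = w x 0 1 + w y 0 1 - 2 * ρ x 0 1 * w y 0 0 - ρ x 0 1 ^ 2 * w y 1 0 := by
  obtain ⟨e1, e2, e3⟩ := twist_unip hx (hw.2 y)
  rw [hw.1 x y, Matrix.add_apply, Matrix.add_apply, Matrix.add_apply, e1, e2, e3]
  refine ⟨?_, ?_, ?_⟩ <;> ring

/-- As unipotent elements commute, the lower left entry of a cocycle is proportional to the
upper right entry of the element. -/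
theorem IsCocycle.entry10_mul_comm (hinj : Function.Injective ρ) {w : G → M2 k}
    (hw : IsCocycle ρ w) {x y : G} (hx : x ∈ unip ρ) (hy : y ∈ unip ρ) :
    w x 1 0 * ρ y 0 1 = w y 1 0 * ρ x 0 1 := by
  have h := (hw.unip_mul hx y).2.1
  rw [unip_comm hinj hx hy, (hw.unip_mul hy x).2.1] at h
  linear_combination h

/-- If the lower left entry of a cocycle is nonzero on some unipotent element, the torus satisfies
`t₀₀ = t₁₁ ^ 3`. -/
theorem diag_eq_cube (hinj : Function.Injective ρ) {z : G → M2 k} (hz : IsCocycle ρ z) {x t : G}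
    (hx : x ∈ unip ρ) (hzx : z x 1 0 ≠ 0) (ht : t ∈ upper ρ) : ρ t 0 0 = ρ t 1 1 ^ 3 := by
  have hx01 : ρ x 0 1 ≠ 0 := fun e => hzx (by simp [unip_eq_one hinj hx e, hz.map_one])
  obtain ⟨hmem, hrel⟩ := conj_mem_unip ht hx
  have h := congrFun (congrFun (hz.of_conj (show t * x * t⁻¹ * t = t * x by group)) 1) 0
  rw [Matrix.add_apply, Matrix.add_apply, (twist_unip hmem (hz.2 t)).1,
    (twist_upper ht (hz.2 x)).1] at h
  have hprop := hz.entry10_mul_comm hinj hmem hx
  refine mul_right_cancel₀ (mul_ne_zero hzx hx01) ?_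
  linear_combination ρ t 1 1 * ρ x 0 1 * h - z x 1 0 * hrel - ρ t 1 1 * hprop

/-- A cocycle whose lower left entry vanishes on the unipotent elements can be changed by a
coboundary so that its diagonal vanishes there as well. -/
theorem exists_coboundary_diag (hinj : Function.Injective ρ) (h2 : (2 : k) ≠ 0) {z : G → M2 k}
    (hz : IsCocycle ρ z) (hf : ∀ x ∈ unip ρ, z x 1 0 = 0) {u : G} (hu : u ∈ unip ρ)
    (hu01 : ρ u 0 1 ≠ 0) : ∃ X : M2 k, X.trace = 0 ∧ ∀ x ∈ unip ρ,
      (z x + (twist ρ x X - X)) 1 0 = 0 ∧ (z x + (twist ρ x X - X)) 0 0 = 0 := by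
  set c := z u 0 0 / ρ u 0 1 with hc
  have hh : ∀ x ∈ unip ρ, z x 0 0 = c * ρ x 0 1 := by
    intro x hx
    have h := (hz.unip_mul hx u).2.2
    rw [unip_comm hinj hx hu, (hz.unip_mul hu x).2.2, hf u hu, hf x hx] at h
    have h' : (2 : k) * (ρ x 0 1 * z u 0 0 - ρ u 0 1 * z x 0 0) = 0 := by linear_combination h
    rw [hc]
    field_simp
    linear_combination (mul_eq_zero.1 h').resolve_left h2 * (-1 : k)
  have hXt : (!![0, 0; -c, 0] : M2 k).trace = 0 := by simp [trace_fin_two]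
  refine ⟨_, hXt, fun x hx => ?_⟩
  obtain ⟨e1, e2, -⟩ := twist_unip hx hXt
  refine ⟨?_, ?_⟩
  · simp only [Matrix.add_apply, Matrix.sub_apply, e1, hf x hx, sub_self, add_zero]
  · simp only [Matrix.add_apply, Matrix.sub_apply, e2, hh x hx]
    simp
    ring

/-- A cocycle whose left column vanishes on the unipotent elements and whose upper right entry is
linear there can be changed by a coboundary so that it vanishes on them. -/
theorem exists_coboundary_unip (h2 : (2 : k) ≠ 0) {z : G → M2 k} (hz : IsCocycle ρ z)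
    (hzU : ∀ x ∈ unip ρ, z x 1 0 = 0 ∧ z x 0 0 = 0) {c : k}
    (hlin : ∀ x ∈ unip ρ, z x 0 1 = c * ρ x 0 1) :
    ∃ X : M2 k, X.trace = 0 ∧ ∀ x ∈ unip ρ, z x + (twist ρ x X - X) = 0 := by
  set X : M2 k := !![c / 2, 0; 0, -(c / 2)] with hX
  have hXt : X.trace = 0 := by simp [hX, trace_fin_two]
  refine ⟨X, hXt, fun x hx => ?_⟩
  obtain ⟨e1, e2, e3⟩ := twist_unip hx hXt
  have h00 : (z x + (twist ρ x X - X)) 0 0 = 0 := by
    simp only [Matrix.add_apply, Matrix.sub_apply, e2, (hzU x hx).2]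
    simp [hX]
  refine ext₂ h00 ?_ ?_ ?_
  · simp only [Matrix.add_apply, Matrix.sub_apply, e3, hlin x hx]
    simp [hX]
    field_simp
    ring
  · simp only [Matrix.add_apply, Matrix.sub_apply, e1, (hzU x hx).1]
    simp
  · have h : (z x + (twist ρ x X - X)).trace = 0 := (hz.add_coboundary hXt).2 x
    rw [trace_fin_two, h00, zero_add] at h
    simpa using h

/-- A cocycle whose left column vanishes on the unipotent elements has linear upper right entry
there, provided there are enough torus squares. -/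
theorem exists_entry01_linear [Finite k] (hinj : Function.Injective ρ) {z : G → M2 k}
    (hz : IsCocycle ρ z) (hzU : ∀ x ∈ unip ρ, z x 1 0 = 0 ∧ z x 0 0 = 0)
    (hcount : (unipEntries ρ).ncard ≤ 2 * (torusSquares ρ).ncard + 1) :
    ∃ c : k, ∀ x ∈ unip ρ, z x 0 1 = c * ρ x 0 1 := by
  let ω : k → k := fun a =>
    z (Function.invFunOn (fun x => ρ x 0 1) (unip ρ : Set G) a) 0 1
  have hω : ∀ x ∈ unip ρ, ω (ρ x 0 1) = z x 0 1 := fun x hx => by
    simp only [ω, (unip_injOn hinj).leftInvOn_invFunOn hx]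
  obtain ⟨c, hc⟩ : ∃ c : k, ∀ a ∈ unipEntries ρ, ω a = c * a := by
    refine exists_eq_mul_of_twisted (unipEntries ρ) ⟨1, (unip ρ).one_mem, by simp⟩ ?_ ω ?_
      (torusSquares ρ) ?_ ?_ hcount
    · rintro _ ⟨x, hx, rfl⟩ _ ⟨y, hy, rfl⟩
      exact ⟨x * y, (unip ρ).mul_mem hx hy, unip_mul_entry hx hy⟩
    · rintro _ ⟨x, hx, rfl⟩ _ ⟨y, hy, rfl⟩
      rw [← unip_mul_entry hx hy, hω _ ((unip ρ).mul_mem hx hy), hω x hx, hω y hy,
        (hz.unip_mul hx y).2.2, (hzU y hy).1, (hzU y hy).2]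
      ring
    · rintro ⟨s, ⟨hsu, hd⟩, hs⟩
      rw [det_upper hsu, sq_eq_zero_iff.1 hs, zero_mul] at hd
      exact zero_ne_one hd
    · rintro _ ⟨s, ⟨hsu, hd⟩, rfl⟩
      rw [det_upper hsu] at hd
      refine ⟨2 * ρ s 0 0 ^ 2 * z s 0 0, ?_⟩
      rintro _ ⟨x, hx, rfl⟩
      obtain ⟨hmem, hrel⟩ := conj_mem_unip hsu hx
      have ha : ρ (s * x * s⁻¹) 0 1 = ρ s 0 0 ^ 2 * ρ x 0 1 := by
        linear_combination ρ s 0 0 * hrel - ρ (s * x * s⁻¹) 0 1 * hd
      refine ⟨⟨_, hmem, ha⟩, ?_⟩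
      have key := hz.of_conj (show s * x * s⁻¹ * s = s * x by group)
      obtain ⟨-, a2, a3⟩ := twist_unip hmem (hz.2 s)
      obtain ⟨-, b2, b3⟩ := twist_upper hsu (hz.2 x)
      have k00 := congrFun (congrFun key 0) 0
      have k01 := congrFun (congrFun key 0) 1
      rw [Matrix.add_apply, Matrix.add_apply, a2, b2, (hzU _ hmem).2, (hzU x hx).1,
        (hzU x hx).2] at k00
      rw [Matrix.add_apply, Matrix.add_apply, a3, b3, (hzU x hx).1, (hzU x hx).2] at k01
      have hft : ρ (s * x * s⁻¹) 0 1 * z s 1 0 = 0 := by linear_combination k00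
      rw [show ρ s 0 0 ^ 2 * ρ x 0 1 = ρ (s * x * s⁻¹) 0 1 from ha.symm, hω _ hmem, hω x hx]
      linear_combination k01 + ρ (s * x * s⁻¹) 0 1 * hft + 2 * z s 0 0 * ha
  exact ⟨c, fun x hx => by rw [← hω x hx, hc _ ⟨x, hx, rfl⟩]⟩


variable [Finite k] (p : ℕ) [Fact p.Prime] [CharP k p]

omit [Finite k] in
theorem det_eq_one_of_pow {x : G} {n : ℕ} (h : x ^ p ^ n = 1) : (ρ x).det = 1 := by
  have e := congrArg (fun y => (ρ y).det) h
  simp only [map_pow, det_pow, map_one, det_one] at e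
  rw [← mul_one (p ^ n)] at e
  simpa using (ExpChar.pow_prime_pow_mul_eq_one_iff p n 1 _).1 e

omit [Finite k] [Fact p.Prime] in
theorem pow_p_eq_one (hinj : Function.Injective ρ) {x : G} (hd : (ρ x).det = 1)
    (ht : (ρ x).trace = 2) : x ^ p = 1 := by
  set N : M2 k := ρ x - 1 with hN
  have hN2 : N * N = 0 := by
    rw [det_fin_two] at hd
    rw [trace_fin_two] at ht
    refine ext₂ ?_ ?_ ?_ ?_ <;> simp [hN, mul_apply, Fin.sum_univ_two]
    · linear_combination -hd + ρ x 0 0 * ht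
    · linear_combination ρ x 0 1 * ht
    · linear_combination ρ x 1 0 * ht
    · linear_combination -hd + ρ x 1 1 * ht
  have hpow : ∀ n : ℕ, ρ (x ^ n) = 1 + (n : k) • N := by
    intro n
    induction n with
    | zero => simp
    | succ n ih =>
      rw [pow_succ, map_mul, ih, show ρ x = 1 + N by rw [hN]; abel]
      simp only [add_mul, mul_add, one_mul, mul_one, smul_mul_assoc, hN2, smul_zero, add_zero]
      push_cast
      rw [add_smul, one_smul]
      abel
  exact hinj (by rw [hpow, CharP.cast_eq_zero, zero_smul, add_zero, map_one])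

omit [Finite k] [Fact p.Prime] in
/-- The upper unitriangular elements form a `p`-group. -/
theorem isPGroup_unip (hinj : Function.Injective ρ) : IsPGroup p (unip ρ) := fun x =>
  ⟨1, Subtype.ext (by
    rw [pow_one]
    exact pow_p_eq_one p hinj (det_trace_unip x.2).1 (det_trace_unip x.2).2)⟩

section Sylow

variable [Finite G] (hinj : Function.Injective ρ) (P : Sylow p G)
  (hPU : (P : Subgroup G) ≤ unip ρ)

include hinj hPU

omit [Finite k] in
/-- By Sylow, an element of determinant one and trace two is conjugate by an element of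
determinant one to an upper unitriangular one. -/
theorem exists_conj_mem_unip {x : G} (hd : (ρ x).det = 1) (ht : (ρ x).trace = 2) :
    ∃ g, (ρ g).det = 1 ∧ g * x * g⁻¹ ∈ unip ρ := by
  have hPS : (P : Subgroup G) ≤ detKer ρ := hPU.trans (unip_le_detKer ρ)
  set y : detKer ρ := ⟨x, (mem_detKer ρ).2 hd⟩ with hy
  have hyp : y ^ p = 1 := Subtype.ext (pow_p_eq_one p hinj hd ht)
  have hyP : IsPGroup p (Subgroup.zpowers y) := fun w => by
    obtain ⟨i, hi⟩ := Subgroup.mem_zpowers_iff.1 w.2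
    refine ⟨1, Subtype.ext ?_⟩
    rw [pow_one, Subgroup.coe_pow, ← hi, ← zpow_natCast, ← zpow_mul, mul_comm, zpow_mul,
      zpow_natCast, hyp, one_zpow]
    rfl
  obtain ⟨Q, hQ⟩ := hyP.exists_le_sylow
  obtain ⟨g, hg⟩ := MulAction.exists_smul_eq (detKer ρ) Q (P.subtype hPS)
  refine ⟨g, (mem_detKer ρ).1 g.2, ?_⟩
  have h : g * y * g⁻¹ ∈ (P.subtype hPS : Subgroup (detKer ρ)) := by
    rw [← hg, Sylow.coe_subgroup_smul]
    exact Subgroup.smul_mem_pointwise_smul y (MulAut.conj g) _ (hQ (Subgroup.mem_zpowers y))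
  exact hPU h

omit [Finite k] in
/-- Dickson's count applied to the elements of determinant one. -/
theorem ncard_unipEntries_le (hp2 : p ≠ 2)
    (hline : ∀ v : Fin 2 → k, v ≠ 0 → ∃ g, ∀ c : k, ρ g *ᵥ v ≠ c • v) {u : G} (hu : u ∈ unip ρ)
    (hu1 : u ≠ 1) : (unipEntries ρ).ncard ≤ 2 * (torusSquares ρ).ncard + 1 := by
  have hp : p.Prime := Fact.out
  have h2 : (2 : k) ≠ 0 := fun e => hp2 ((Nat.prime_dvd_prime_iff_eq hp Nat.prime_two).1
    ((CharP.cast_eq_zero_iff k p 2).1 (by exact_mod_cast e)))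
  set ρS : detKer ρ →* M2 k := ρ.comp (detKer ρ).subtype with hρS
  have hU : Nat.card (unip ρS) = (unipEntries ρ).ncard := by
    rw [unipEntries, (unip_injOn hinj).ncard_image, ← Nat.card_coe_set_eq]
    exact Nat.card_congr
      { toFun := fun x => ⟨x.1.1, x.2⟩
        invFun := fun x => ⟨⟨x.1, (mem_detKer ρ).2 (det_trace_unip x.2).1⟩, x.2⟩
        left_inv := fun _ => rfl
        right_inv := fun _ => rfl }
  have hT : Set.range (torusSq ρS) = torusSquares ρ := by
    ext a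
    exact ⟨fun ⟨s, hs⟩ => ⟨s.1.1, ⟨s.2, (mem_detKer ρ).1 s.1.2⟩, hs⟩,
      fun ⟨s, hs, ha⟩ => ⟨⟨⟨s, (mem_detKer ρ).2 hs.2⟩, hs.1⟩, ha⟩⟩
  rw [← hU, ← hT]
  refine card_unip_le (hinj.comp Subtype.val_injective) h2 (fun x => (mem_detKer ρ).1 x.2) p
    (hp.odd_of_ne_two hp2) (CharP.cast_eq_zero k p) (fun x hx => ?_)
    ⟨⟨u, unip_le_detKer ρ hu⟩, hu, fun e => hu1 (congrArg Subtype.val e)⟩ fun htop => ?_
  · obtain ⟨g, hgd, hg⟩ := exists_conj_mem_unip p hinj P hPU ((mem_detKer ρ).1 x.2) hx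
    exact ⟨⟨g, (mem_detKer ρ).2 hgd⟩, hg⟩
  obtain ⟨g, hg⟩ := hline ![1, 0] (fun e => one_ne_zero (congrFun e 0))
  have hd : (ρ (g * u * g⁻¹)).det = 1 := by
    rw [map_mul, map_mul, det_mul_right_comm, rho_mul_inv, one_mul, (det_trace_unip hu).1]
  have hmem : (⟨g * u * g⁻¹, (mem_detKer ρ).2 hd⟩ : detKer ρ) ∈ upper ρS :=
    htop ▸ Subgroup.mem_top _
  have hgu : g * u * g⁻¹ ∈ unip ρ := mem_unip_of_det_trace hmem hd (by
    rw [map_mul, map_mul, trace_mul_cycle, rho_inv_mul, one_mul, (det_trace_unip hu).2])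
  have hgup : g ∈ upper ρ :=
    upper_of_conj hu (fun e => hu1 (unip_eq_one hinj hu e)) hgu (by group)
  refine hg (ρ g 0 0) (vecExt₂ ?_ ?_) <;>
    simp [mulVec, dotProduct, Fin.sum_univ_two, (mem_upper ρ).1 hgup]

omit [Finite k] [CharP k p] in
/-- By the Frattini argument, every determinant is taken on an upper triangular element. -/
theorem exists_upper_det_eq (hP1 : (P : Subgroup G) ≠ ⊥) (t₀ : G) :
    ∃ t ∈ upper ρ, (ρ t).det = (ρ t₀).det := by
  have hPS : (P : Subgroup G) ≤ detKer ρ := hPU.trans (unip_le_detKer ρ)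
  obtain ⟨u, hu1⟩ := Subgroup.ne_bot_iff_exists_ne_one.1 hP1
  have hu01 : ρ (u : G) 0 1 ≠ 0 := fun e => hu1 (Subtype.ext (unip_eq_one hinj (hPU u.2) e))
  have hmem : t₀ ∈ Subgroup.normalizer ((P : Subgroup G) : Set G) ⊔ (detKer ρ) :=
    Sylow.normalizer_sup_eq_top' P hPS ▸ Subgroup.mem_top _
  obtain ⟨t, htn, s, hs, rfl⟩ := Subgroup.mem_sup_of_normal_right.1 hmem
  refine ⟨t, upper_of_conj (hPU u.2) hu01 (u' := t * u * t⁻¹) ?_ (by group), ?_⟩
  · exact hPU ((Subgroup.mem_normalizer_iff.1 htn u).1 u.2)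
  · rw [map_mul, det_mul, (mem_detKer ρ).1 hs, mul_one]

end Sylow

/-- If all torus elements satisfy `t₀₀ = t₁₁ ^ 3`, the unipotent group has order `p`. -/
theorem card_unip_eq_prime [Finite G] (hinj : Function.Injective ρ) (hp2 : p ≠ 2) {u : G}
    (hu : u ∈ unip ρ) (hu1 : u ≠ 1)
    (hcount : (unipEntries ρ).ncard ≤ 2 * (torusSquares ρ).ncard + 1)
    (hcube : ∀ t ∈ upper ρ, ρ t 0 0 = ρ t 1 1 ^ 3) : Nat.card (unip ρ) = p := by
  have hsmall : torusSquares ρ ⊆ {1, -1} := by
    rintro _ ⟨s, ⟨hs, hd⟩, rfl⟩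
    rw [det_upper hs, hcube s hs] at hd
    simp only [Set.mem_insert_iff, Set.mem_singleton_iff]
    refine sq_eq_one_iff.1 ?_
    rw [hcube s hs]
    linear_combination (ρ s 1 1 ^ 8 + ρ s 1 1 ^ 4 + 1) * hd
  have hle : (torusSquares ρ).ncard ≤ 2 :=
    (Set.ncard_le_ncard hsmall (Set.toFinite _)).trans ((Set.ncard_insert_le _ _).trans
      (by rw [Set.ncard_singleton]))
  have hq : Nat.card (unip ρ) ≤ 5 := by
    rw [unipEntries, (unip_injOn hinj).ncard_image, ← Nat.card_coe_set_eq] at hcount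
    calc Nat.card (unip ρ) ≤ 2 * (torusSquares ρ).ncard + 1 := hcount
      _ ≤ 5 := by omega
  obtain ⟨n, hn⟩ := (isPGroup_unip p hinj).exists_card_eq
  rw [hn] at hq
  rcases n with _ | _ | n
  · rw [pow_zero] at hn
    exact absurd (congrArg Subtype.val ((Nat.card_eq_one_iff_unique.1 hn).1.elim
      (⟨u, hu⟩ : unip ρ) ⟨1, (unip ρ).one_mem⟩)) hu1
  · simpa using hn
  · have hp : p.Prime := Fact.out
    have h3 : 3 ≤ p := by have := hp.two_le; omega
    have h9 : 9 ≤ p ^ (n + 1 + 1) :=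
      le_trans (by nlinarith) (Nat.pow_le_pow_right hp.pos (by omega : 2 ≤ n + 1 + 1))
    omega

omit [Finite k] [CharP k p] in
/-- When the unipotent group has order `p`, the ratio of the diagonal entries of an upper
triangular element lies in the prime field. -/
theorem exists_diag_eq_natCast_mul (hinj : Function.Injective ρ) (hcard : Nat.card (unip ρ) = p)
    {u t : G} (hu : u ∈ unip ρ) (hu1 : u ≠ 1) (ht : t ∈ upper ρ) :
    ∃ i : ℕ, ρ t 0 0 = i * ρ t 1 1 := by
  obtain ⟨hmem, hrel⟩ := conj_mem_unip ht hu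
  obtain ⟨i, hi⟩ : ∃ i : ℕ, (⟨t * u * t⁻¹, hmem⟩ : unip ρ) = ⟨u, hu⟩ ^ i :=
    ((mem_powers_of_prime_card (h := hcard) (g := (⟨u, hu⟩ : unip ρ))
      (fun e => hu1 (congrArg Subtype.val e)))).imp fun i h => h.symm
  have hai : ∀ i : ℕ, ρ (u ^ i) 0 1 = i * ρ u 0 1 := by
    intro i
    induction i with
    | zero => simp
    | succ i ih =>
      rw [pow_succ u i, unip_mul_entry ((unip ρ).pow_mem hu i) hu, ih]; push_cast; ring
  rw [show t * u * t⁻¹ = u ^ i from congrArg Subtype.val hi, hai] at hrel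
  refine ⟨i, mul_right_cancel₀ (fun e => hu1 (unip_eq_one hinj hu e)) ?_⟩
  linear_combination -hrel

/-- As some determinant is not a square in the prime field, the lower left entry of a cocycle
vanishes on the unipotent elements. -/
theorem entry10_eq_zero [Finite G] (hinj : Function.Injective ρ) (hp2 : p ≠ 2)
    (hcount : (unipEntries ρ).ncard ≤ 2 * (torusSquares ρ).ncard + 1)
    {t : G} (ht : t ∈ upper ρ) (hdet : ∀ i : ℕ, (i : k) ^ 2 ≠ (ρ t).det)
    {z : G → M2 k} (hz : IsCocycle ρ z) {x : G} (hx : x ∈ unip ρ) : z x 1 0 = 0 := by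
  by_contra hzx
  have hx1 : x ≠ 1 := fun e => hzx (by simp [e, hz.map_one])
  have hcube := fun s hs => diag_eq_cube hinj hz hx hzx (t := s) hs
  obtain ⟨i, hi⟩ := exists_diag_eq_natCast_mul p hinj
    (card_unip_eq_prime p hinj hp2 hx hx1 hcount hcube) hx hx1 ht
  have hi2 : (i : k) = ρ t 1 1 ^ 2 :=
    mul_right_cancel₀ (diag₁_ne_zero ht) (by rw [← hi, hcube t ht]; ring)
  exact hdet i (by rw [hi2, det_upper ht, hcube t ht]; ring)

/-- Vanishing when a Sylow subgroup consists of upper unitriangular matrices. -/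
theorem exists_coboundary_of_upper [Finite G] (hinj : Function.Injective ρ) (hp2 : p ≠ 2)
    (hline : ∀ v : Fin 2 → k, v ≠ 0 → ∃ g, ∀ c : k, ρ g *ᵥ v ≠ c • v)
    (hdet : ∃ t, ∀ i : ℕ, (i : k) ^ 2 ≠ (ρ t).det)
    (P : Sylow p G) (hPU : (P : Subgroup G) ≤ unip ρ) (hP1 : (P : Subgroup G) ≠ ⊥)
    {z : G → M2 k} (hz : IsCocycle ρ z) :
    ∃ X : M2 k, X.trace = 0 ∧ ∀ g, z g = twist ρ g X - X := by
  have h2 : (2 : k) ≠ 0 := fun e => hp2 ((Nat.prime_dvd_prime_iff_eq Fact.out Nat.prime_two).1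
    ((CharP.cast_eq_zero_iff k p 2).1 (by exact_mod_cast e)))
  obtain ⟨u, hu1⟩ := Subgroup.ne_bot_iff_exists_ne_one.1 hP1
  have hu1' : (u : G) ≠ 1 := fun e => hu1 (Subtype.ext e)
  have hcount := ncard_unipEntries_le p hinj P hPU hp2 hline (hPU u.2) hu1'
  obtain ⟨t₀, ht₀⟩ := hdet
  obtain ⟨t, ht, htdet⟩ := exists_upper_det_eq p hinj P hPU hP1 t₀
  -- the lower left entry vanishes; then kill the diagonal, then the upper right entry
  have hf := fun x hx =>
    entry10_eq_zero p hinj hp2 hcount ht (by rwa [htdet]) hz (x := x) hx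
  obtain ⟨X1, hX1t, hz1U⟩ := exists_coboundary_diag hinj h2 hz hf (hPU u.2)
    fun e => hu1' (unip_eq_one hinj (hPU u.2) e)
  have hz1 := hz.add_coboundary hX1t
  obtain ⟨c, hlin⟩ := exists_entry01_linear hinj hz1 hz1U hcount
  obtain ⟨X2, hX2t, hz2U⟩ := exists_coboundary_unip h2 hz1 hz1U hlin
  have hidx : ((P : Subgroup G).index : k) ≠ 0 := fun e =>
    P.not_dvd_index ((CharP.cast_eq_zero_iff k p _).1 e)
  obtain ⟨X, hXt, hX⟩ := exists_coboundary_of_index (hz1.add_coboundary hX2t) _ hidx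
    fun x hx => hz2U x (hPU hx)
  refine ⟨X - X1 - X2, by rw [trace_sub, trace_sub, hXt, hX1t, hX2t]; simp, fun g => ?_⟩
  rw [twist_sub, twist_sub, eq_sub_of_add_eq (eq_sub_of_add_eq (hX g))]
  abel

/-- `H¹` of a finite irreducible matrix group on the twisted adjoint representation vanishes as
soon as the determinant takes a value which is not the square of an element of the prime field. -/
theorem exists_coboundary [Finite G] (hinj : Function.Injective ρ) (hp2 : p ≠ 2)
    (hline : ∀ v : Fin 2 → k, v ≠ 0 → ∃ g, ∀ c : k, ρ g *ᵥ v ≠ c • v)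
    (hdet : ∃ t, ∀ i : ℕ, (i : k) ^ 2 ≠ (ρ t).det) {z : G → M2 k} (hz : IsCocycle ρ z) :
    ∃ X : M2 k, X.trace = 0 ∧ ∀ g, z g = twist ρ g X - X := by
  classical
  obtain ⟨P⟩ := (inferInstance : Nonempty (Sylow p G))
  by_cases hP : (P : Subgroup G) = ⊥
  · refine exists_coboundary_of_index hz _ (fun e => P.not_dvd_index
      ((CharP.cast_eq_zero_iff k p _).1 e)) fun s hs => ?_
    rw [hP, Subgroup.mem_bot] at hs
    rw [hs, hz.map_one]
  let _ : MulAction (P : Subgroup G) (Fin 2 → k) :=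
    { smul := fun g v => ρ (g : G) *ᵥ v
      one_smul := fun v => by show ρ ((1 : (P : Subgroup G)) : G) *ᵥ v = v; simp
      mul_smul := fun g h v => by
        show ρ ((g * h : (P : Subgroup G)) : G) *ᵥ v = ρ (g : G) *ᵥ (ρ (h : G) *ᵥ v)
        simp [mulVec_mulVec] }
  have hcard : p ∣ Nat.card (Fin 2 → k) := by
    have h1 : p ∣ Nat.card k := by
      rw [← CharP.eq k (CharP.addOrderOf_one k) (inferInstance : CharP k p)]
      exact addOrderOf_dvd_natCard 1
    rw [Nat.card_fun, Nat.card_fin, sq]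
    exact dvd_mul_of_dvd_left h1 _
  obtain ⟨v, hv, hv0⟩ := P.2.exists_fixed_point_of_prime_dvd_card_of_fixed_point (Fin 2 → k) hcard
    (a := 0) (fun g => mulVec_zero (ρ (g : G)))
  obtain ⟨C, hC, hCv⟩ : ∃ C : M2 k, C.det ≠ 0 ∧ C *ᵥ ![1, 0] = v := by
    by_cases h0 : v 0 = 0
    · exact ⟨!![v 0, 1; v 1, 0], by
        rw [det_fin_two_of]
        simpa using fun e : v 1 = 0 => hv0 (vecExt₂ (by simp [h0]) (by simp [e])),
        vecExt₂ (by simp) (by simp)⟩
    · exact ⟨!![v 0, 0; v 1, 1], by rw [det_fin_two_of]; simpa using h0,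
        vecExt₂ (by simp) (by simp)⟩
  have hCu : IsUnit C.det := isUnit_iff_ne_zero.2 hC
  have h1 : C * C⁻¹ = 1 := mul_nonsing_inv C hCu
  have h1' : C⁻¹ * C = 1 := nonsing_inv_mul C hCu
  let ρ' : G →* M2 k :=
    { toFun := fun g => C⁻¹ * ρ g * C
      map_one' := by rw [map_one, mul_one, h1']
      map_mul' := fun a b => by
        rw [map_mul, show C⁻¹ * ρ a * C * (C⁻¹ * ρ b * C) = C⁻¹ * ρ a * (C * C⁻¹) * ρ b * C by
          simp only [mul_assoc], h1, mul_one, ← mul_assoc] }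
  have hback : ∀ g, ρ g = C * ρ' g * C⁻¹ := fun g => by
    show _ = C * (C⁻¹ * ρ g * C) * C⁻¹
    simp only [mul_assoc, h1, mul_one]
    simp only [← mul_assoc, h1, one_mul]
  have hinj' : Function.Injective ρ' := fun a b e => hinj (by rw [hback a, hback b, e])
  have hdetC : ∀ g, (ρ' g).det = (ρ g).det := fun g => by
    show (C⁻¹ * ρ g * C).det = _
    rw [det_mul_right_comm, h1', one_mul]
  have htwist : ∀ g X, twist ρ' g (C⁻¹ * X * C) = C⁻¹ * twist ρ g X * C := by
    intro g X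
    have hadj : (ρ' g).adjugate = C⁻¹ * (ρ g).adjugate * C := by
      have e1 : ρ' g * (C⁻¹ * (ρ g).adjugate * C) = (ρ' g).det • (1 : M2 k) := by
        show C⁻¹ * ρ g * C * (C⁻¹ * (ρ g).adjugate * C) = _
        rw [show C⁻¹ * ρ g * C * (C⁻¹ * (ρ g).adjugate * C) =
          C⁻¹ * ρ g * (C * C⁻¹) * (ρ g).adjugate * C by simp only [mul_assoc], h1, mul_one,
          mul_assoc C⁻¹, mul_adjugate, mul_smul_comm, mul_one, smul_mul_assoc, h1', hdetC]
      have e3 := congrArg (ρ' g⁻¹ * ·) (e1.trans (mul_adjugate (ρ' g)).symm)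
      simp only [← mul_assoc (ρ' g⁻¹)] at e3
      rw [rho_inv_mul, one_mul, one_mul] at e3
      exact e3.symm
    show C⁻¹ * ρ g * C * (C⁻¹ * X * C) * (ρ' g).adjugate = _
    rw [hadj, show C⁻¹ * ρ g * C * (C⁻¹ * X * C) * (C⁻¹ * (ρ g).adjugate * C) =
      C⁻¹ * ρ g * (C * C⁻¹) * X * (C * C⁻¹) * (ρ g).adjugate * C by simp only [mul_assoc], h1,
      mul_one, mul_one]
    simp only [twist, mul_assoc]
  have hz' : IsCocycle ρ' (fun g => C⁻¹ * z g * C) := by
    refine ⟨fun a b => ?_, fun a => ?_⟩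
    · simp only [hz.1 a b, mul_add, add_mul, htwist]
    · rw [trace_mul_cycle, h1, one_mul, hz.2]
  have hline' : ∀ w : Fin 2 → k, w ≠ 0 → ∃ g, ∀ c : k, ρ' g *ᵥ w ≠ c • w := by
    intro w hw
    obtain ⟨g, hg⟩ := hline (C *ᵥ w) fun e => hw (by
      have := congrArg (C⁻¹ *ᵥ ·) e
      simpa [mulVec_mulVec, h1'] using this)
    refine ⟨g, fun c hc => hg c ?_⟩
    rw [← mulVec_smul, ← hc, mulVec_mulVec, mulVec_mulVec, hback g]
    simp only [mul_assoc, h1', mul_one]
  have hPU : (P : Subgroup G) ≤ unip ρ' := by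
    intro g hg
    have e : ρ' g *ᵥ ![1, 0] = ![1, 0] := by
      show (C⁻¹ * ρ g * C) *ᵥ _ = _
      rw [← mulVec_mulVec, hCv, ← mulVec_mulVec, show ρ g *ᵥ v = v from hv ⟨g, hg⟩, ← hCv,
        mulVec_mulVec, h1', one_mulVec]
    have e0 := congrFun e 0
    have e1 := congrFun e 1
    simp [mulVec, dotProduct, Fin.sum_univ_two] at e0 e1
    obtain ⟨n, hn⟩ := P.2 ⟨g, hg⟩
    have hd := det_eq_one_of_pow p (ρ := ρ') (congrArg Subtype.val hn)
    rw [det_fin_two, e0, e1, one_mul, mul_zero, sub_zero] at hd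
    exact ⟨e1, e0, hd⟩
  obtain ⟨X, hXt, hX⟩ := exists_coboundary_of_upper p hinj' hp2 hline'
    (hdet.imp fun t ht i => by rw [hdetC]; exact ht i) P hPU hP hz'
  refine ⟨C * X * C⁻¹, by rw [trace_mul_cycle, h1', one_mul, hXt], fun g => ?_⟩
  have hXC : C⁻¹ * (C * X * C⁻¹) * C = X := by
    simp only [mul_assoc, h1', mul_one]
    simp only [← mul_assoc, h1', one_mul]
  have h := congrArg (fun M => C * M * C⁻¹) (hX g)
  rw [← hXC, htwist, ← sub_mul, ← mul_sub] at h
  simp only [mul_assoc, h1, mul_one] at h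
  simp only [← mul_assoc, h1, one_mul] at h
  simpa [mul_assoc] using h

end Fermat.Agent.TWElement
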