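import Fermat.Agent.TWElement.Adjoint
import Fermat.Agent.TWElement.Vanishing
import Fermat.Prelude.Def_GaloisRep_LocalConditions
import Mathlib.RingTheory.Polynomial.Cyclotomic.Roots
import Mathlib.FieldTheory.Normal.Basic
import Mathlib.FieldTheory.IsAlgClosed.AlgebraicClosure
import Mathlib.RingTheory.RootsOfUnity.AlgebraicallyClosed
import Mathlib.LinearAlgebra.Charpoly.ToMatrix
import Mathlib.LinearAlgebra.Matrix.Charpoly.Coeff

/-!
# Galois elements defining Taylor–Wiles primes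

`exists_twElement`: for an odd prime `p`, a representation `Gal(ℚ̄/ℚ) → GL₂(k)` with cyclotomic
determinant and no stable line over subgroups of index at most two, and a cocycle of the twisted
adjoint representation which is not a coboundary, some `σ` fixing `ζ_{p^(n+1)}` has an image with
distinct eigenvalues at which the cocycle is nontrivial.
-/

set_option autoImplicit false

open Matrix Module

namespace Fermat.Agent.TWElement

section Group

variable {G : Type*} [Group G] {k : Type*} [Field k] {ρ : G →* M2 k}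

theorem det_smul_conjAct (g : G) (X : M2 k) : (ρ g).det • conjAct ρ g X = twist ρ g X := by
  have e : (ρ g).adjugate = (ρ g).det • ρ g⁻¹ := by
    have h := congrArg (ρ g⁻¹ * ·) (mul_adjugate (ρ g))
    simp only [← mul_assoc, rho_inv_mul, one_mul, mul_smul_comm, mul_one] at h
    exact h
  rw [twist, e, conjAct, mul_smul_comm]

variable [Finite k]

/-- A nontrivial class is detected on some element of `H` with distinct eigenvalues. -/
theorem exists_mem_trace_ne_zero (p : ℕ) [Fact p.Prime] [CharP k p] (hp2 : p ≠ 2)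
    (hρ : NoStableLine ρ) (hnsq : ∃ t, ∀ i : ℕ, (i : k) ^ 2 ≠ (ρ t).det)
    (H : Subgroup G) (hc : ∀ a b : G, a * b * a⁻¹ * b⁻¹ ∈ H)
    (hH : ∀ h ∈ H, (ρ h).det = 1) (y : G → M2 k) (hy : IsCocycle ρ y)
    (hne : ¬ ∃ X : M2 k, X.trace = 0 ∧ ∀ σ, y σ = twist ρ σ X - X) :
    ∃ σ ∈ H, (ρ σ).det = 1 ∧ (ρ σ).trace ^ 2 ≠ 4 ∧ (y σ * ρ σ).trace ≠ 0 := by
  have hp : p.Prime := Fact.out
  have h2 : (2 : k) ≠ 0 := by
    intro e
    have := (CharP.cast_eq_zero_iff k p 2).1 (by exact_mod_cast e)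
    exact hp2 ((Nat.prime_dvd_prime_iff_eq hp Nat.prime_two).1 this)
  -- conjugation and the cocycle on the kernel
  have hequiv : ∀ g n, ρ n = 1 → y (g * n * g⁻¹) = twist ρ g (y n) := by
    intro g n hn
    have h1 : y g + twist ρ g (y g⁻¹) = 0 := by rw [← hy.1, mul_inv_cancel, hy.map_one]
    have h2 : twist ρ n (y g⁻¹) = y g⁻¹ := by simp [twist, hn]
    rw [mul_assoc, hy.1, hy.1, h2, twist_add]
    calc y g + (twist ρ g (y n) + twist ρ g (y g⁻¹))
          = twist ρ g (y n) + (y g + twist ρ g (y g⁻¹)) := by abel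
      _ = twist ρ g (y n) := by rw [h1, add_zero]
  obtain ⟨σ, hσ, hreg⟩ := exists_regular h2 hρ H hc hH
  by_cases hker : ∃ n ∈ H, ρ n = 1 ∧ y n ≠ 0
  · obtain ⟨n, hn, hn1, hyn⟩ := hker
    have hns : ¬ IsScalar (ρ σ) := by
      intro hs
      obtain ⟨a, ha⟩ := (isScalar_iff_exists _).1 hs
      refine hreg ?_
      have hd := hH σ hσ
      rw [ha, det_smul, det_one, mul_one, Fintype.card_fin] at hd
      rw [ha, trace_smul, trace_one, Fintype.card_fin, smul_eq_mul]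
      push_cast
      linear_combination 4 * hd
    obtain ⟨g, hg⟩ := exists_trace_conjAct_ne_zero h2 hρ hyn (hy.2 n) hns
    by_cases hσ0 : (y σ * ρ σ).trace ≠ 0
    · exact ⟨σ, hσ, hH σ hσ, hreg, hσ0⟩
    push Not at hσ0
    set τ := g * n * g⁻¹ with hτ
    have hτH : τ ∈ H := by simpa [hτ] using H.mul_mem (hc g n) hn
    have hτ1 : ρ τ = 1 := by rw [hτ, map_mul, map_mul, hn1, mul_one, rho_mul_inv]
    have hρ' : ρ (τ * σ) = ρ σ := by rw [map_mul, hτ1, one_mul]
    refine ⟨τ * σ, H.mul_mem hτH hσ, by rw [hρ']; exact hH σ hσ, by rwa [hρ'], ?_⟩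
    rw [hρ', hy.1, show twist ρ τ (y σ) = y σ by simp [twist, hτ1], add_mul, trace_add, hσ0,
      add_zero, hτ, hequiv g n hn1, ← det_smul_conjAct, smul_mul_assoc, trace_smul]
    exact smul_ne_zero (det_rho_ne_zero ρ g) hg
  · push Not at hker
    exfalso
    have hzero : ∀ n, ρ n = 1 → y n = 0 := by
      intro n hn
      refine eq_zero_of_fixed h2 hρ (hy.2 n) fun g => ?_
      rw [det_smul_conjAct, ← hequiv g n hn]
      set m := g * n * g⁻¹ * n⁻¹
      have hm : m ∈ H := hc g n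
      have hm1 : ρ m = 1 := by
        simp only [m, map_mul, hn, mul_one, rho_mul_inv, one_mul]
        have e := rho_mul_inv ρ n
        rwa [hn, one_mul] at e
      rw [show g * n * g⁻¹ = m * n by simp [m], hy.1, hker m hm hm1, zero_add]
      simp [twist, hm1]
    -- hence the cocycle lives on the finite image
    set Γ := ρ.toHomUnits.range with hΓ
    have : Finite Γ := inferInstance
    let ρΓ : Γ →* M2 k := (Units.coeHom (M2 k)).comp Γ.subtype
    have hinj : Function.Injective ρΓ := fun a b e => Subtype.ext (Units.ext e)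
    choose sec hsec using fun γ : Γ => γ.2
    have hρsec : ∀ γ, ρ (sec γ) = ρΓ γ := fun γ => congrArg Units.val (hsec γ)
    have hfac : ∀ a b, ρ a = ρ b → y a = y b := by
      intro a b e
      have e1 : ρ (a⁻¹ * b) = 1 := by rw [map_mul, ← e, rho_inv_mul]
      have h := hy.1 a (a⁻¹ * b)
      rw [mul_inv_cancel_left, hzero _ e1] at h
      rw [h]; simp [twist]
    have hz : IsCocycle ρΓ (fun γ => y (sec γ)) := by
      refine ⟨fun a b => ?_, fun a => hy.2 _⟩
      show y (sec (a * b)) = y (sec a) + twist ρΓ a (y (sec b))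
      rw [hfac (sec (a * b)) (sec a * sec b) (by rw [map_mul, hρsec, hρsec, hρsec, map_mul]), hy.1]
      simp only [twist, hρsec]
    have hline : ∀ v : Fin 2 → k, v ≠ 0 → ∃ γ, ∀ c : k, ρΓ γ *ᵥ v ≠ c • v := by
      intro v hv
      obtain ⟨g, -, hg⟩ := mulVec_stable hρ (.inl rfl) v hv
      exact ⟨⟨ρ.toHomUnits g, g, rfl⟩, hg⟩
    obtain ⟨t, ht⟩ := hnsq
    obtain ⟨X, hXt, hX⟩ :=
      exists_coboundary p hinj hp2 hline ⟨⟨ρ.toHomUnits t, t, rfl⟩, ht⟩ hz
    refine hne ⟨X, hXt, fun g => ?_⟩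
    have h := hX ⟨ρ.toHomUnits g, g, rfl⟩
    simp only [twist] at h ⊢
    rw [hfac g (sec ⟨ρ.toHomUnits g, g, rfl⟩) (by rw [hρsec]; rfl)]
    exact h

end Group

/-- The absolute Galois group of `ℚ`. -/
abbrev GalQ : Type := AlgebraicClosure ℚ ≃ₐ[ℚ] AlgebraicClosure ℚ

/-- Automorphisms fixing all `m`-th roots of unity. -/
def fixRoots (m : ℕ) : Subgroup GalQ where
  carrier := {σ | ∀ μ : AlgebraicClosure ℚ, μ ^ m = 1 → σ μ = μ}
  one_mem' := fun _ _ => rfl
  mul_mem' := fun {a b} ha hb μ hμ => by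
    show a (b μ) = μ
    rw [hb μ hμ, ha μ hμ]
  inv_mem' := fun {a} ha μ hμ => by
    conv_lhs => rw [← ha μ hμ]
    exact a.symm_apply_apply μ

theorem commutator_mem_fixRoots (m : ℕ) [NeZero m] (a b : GalQ) :
    a * b * a⁻¹ * b⁻¹ ∈ fixRoots m := by
  intro μ hμ
  have : NeZero (m : AlgebraicClosure ℚ) := ⟨Nat.cast_ne_zero.2 (NeZero.ne m)⟩
  obtain ⟨ζ, hζ⟩ := HasEnoughRootsOfUnity.exists_primitiveRoot (AlgebraicClosure ℚ) m
  have hexp : ∀ σ : GalQ, ∃ i : ℕ, ∀ x : AlgebraicClosure ℚ, x ^ m = 1 → σ x = x ^ i := by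
    intro σ
    obtain ⟨i, -, hi⟩ := hζ.eq_pow_of_pow_eq_one
      (show (σ ζ) ^ m = 1 by rw [← map_pow, hζ.pow_eq_one, map_one])
    refine ⟨i, fun x hx => ?_⟩
    obtain ⟨j, -, rfl⟩ := hζ.eq_pow_of_pow_eq_one hx
    rw [map_pow, ← hi, ← pow_mul, ← pow_mul, mul_comm]
  obtain ⟨i, hi⟩ := hexp a
  obtain ⟨j, hj⟩ := hexp b
  set x := a⁻¹ (b⁻¹ μ) with hx
  have hxm : x ^ m = 1 := by rw [hx, ← map_pow, ← map_pow, hμ, map_one, map_one]
  show a (b x) = μ
  rw [hj x hxm, map_pow, hi x hxm, ← pow_mul, mul_comm, pow_mul, ← hj x hxm, ← map_pow, ← hi x hxm,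
    hx]
  show b (a (a.symm (b.symm μ))) = μ
  rw [AlgEquiv.apply_symm_apply, AlgEquiv.apply_symm_apply]

theorem exists_galois_pow_root (p : ℕ) [Fact p.Prime] {a : ℕ} (ha : ¬ p ∣ a) :
    ∃ σ : GalQ, ∀ μ : AlgebraicClosure ℚ, μ ^ p = 1 → σ μ = μ ^ a := by
  have hp : p.Prime := Fact.out
  have : NeZero p := ⟨hp.ne_zero⟩
  have : NeZero (p : AlgebraicClosure ℚ) := ⟨Nat.cast_ne_zero.2 hp.ne_zero⟩
  obtain ⟨ζ, hζ⟩ := HasEnoughRootsOfUnity.exists_primitiveRoot (AlgebraicClosure ℚ) p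
  have hζa : IsPrimitiveRoot (ζ ^ a) p :=
    hζ.pow_of_coprime a ((hp.coprime_iff_not_dvd.2 ha).symm)
  have he : minpoly ℚ ζ = minpoly ℚ (ζ ^ a) := by
    rw [← Polynomial.cyclotomic_eq_minpoly_rat hζ hp.pos,
      ← Polynomial.cyclotomic_eq_minpoly_rat hζa hp.pos]
  have halg : Algebra.IsAlgebraic ℚ (AlgebraicClosure ℚ) := by
    convert AlgebraicClosure.isAlgebraic ℚ
    · rfl
    · exact Subsingleton.elim _ _
  have : IsAlgClosure ℚ (AlgebraicClosure ℚ) := ⟨inferInstance, halg⟩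
  have : Normal ℚ (AlgebraicClosure ℚ) := IsAlgClosure.normal ℚ (AlgebraicClosure ℚ)
  obtain ⟨σ, hσ⟩ := Normal.minpoly_eq_iff_mem_orbit (E := AlgebraicClosure ℚ) |>.1 he.symm
  refine ⟨σ, fun μ hμ => ?_⟩
  obtain ⟨i, -, rfl⟩ := hζ.eq_pow_of_pow_eq_one hμ
  simp only [AlgEquiv.smul_def] at hσ
  rw [map_pow, hσ, ← pow_mul, ← pow_mul, mul_comm]

variable {k : Type} [Field k] [Finite k]

/-- **Taylor–Wiles elements**: a nonzero class in `H¹(ℚ, ad⁰(1))` is detected by an element fixing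
the `p ^ (n + 1)`-st roots of unity whose image has distinct eigenvalues. -/
theorem exists_twElement (p : ℕ) [Fact p.Prime] (hp2 : p ≠ 2) (hpk : (p : k) = 0)
    (ρ : GalQ →* M2 k)
    (hdet : ∀ (σ : GalQ) (a : ℕ), (∀ μ : AlgebraicClosure ℚ, μ ^ p = 1 → σ μ = μ ^ a) →
      (ρ σ).det = (a : k))
    (hline : NoStableLine ρ) (y : GalQ → M2 k) (htr : ∀ σ, (y σ).trace = 0)
    (hy : ∀ σ τ, y (σ * τ) = y σ + (ρ σ).det • (ρ σ * y τ * ρ σ⁻¹))
    (hne : ¬ ∃ X : M2 k, X.trace = 0 ∧ ∀ σ, y σ = (ρ σ).det • (ρ σ * X * ρ σ⁻¹) - X)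
    (n : ℕ) :
    ∃ σ : GalQ, (∀ μ : AlgebraicClosure ℚ, μ ^ p ^ (n + 1) = 1 → σ μ = μ) ∧ (ρ σ).det = 1 ∧
      (ρ σ).trace ^ 2 ≠ 4 ∧ (y σ * ρ σ).trace ≠ 0 := by
  have hp : p.Prime := Fact.out
  have : CharP k p := (CharP.charP_iff_prime_eq_zero hp).2 hpk
  have : NeZero (p ^ (n + 1)) := ⟨pow_ne_zero _ hp.ne_zero⟩
  have hnsq : ∃ t, ∀ i : ℕ, (i : k) ^ 2 ≠ (ρ t).det := by
    obtain ⟨a, ha⟩ := FiniteField.exists_nonsquare (F := ZMod p) (by rwa [ZMod.ringChar_zmod_n])
    have ha0 : ¬ p ∣ a.val := fun h => ha (by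
      rw [← ZMod.natCast_zmod_val a, (ZMod.natCast_eq_zero_iff _ p).2 h]; exact IsSquare.zero)
    obtain ⟨t, ht⟩ := exists_galois_pow_root p ha0
    refine ⟨t, fun i e => ha ⟨(i : ZMod p), ?_⟩⟩
    rw [hdet t a.val ht] at e
    have e' : ((i ^ 2 : ℕ) : k) = ((a.val : ℕ) : k) := by push_cast; exact e
    have e'' := (ZMod.natCast_eq_natCast_iff _ _ _).2 ((CharP.natCast_eq_natCast k p).1 e')
    rw [ZMod.natCast_zmod_val] at e''
    rw [← e'']; push_cast; ring
  have hH : ∀ h ∈ fixRoots (p ^ (n + 1)), (ρ h).det = 1 := by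
    intro h hh
    rw [hdet h 1 fun μ hμ => ?_, Nat.cast_one]
    rw [pow_one]
    exact hh μ (by rw [pow_succ', pow_mul, hμ, one_pow])
  have hy' : IsCocycle ρ y :=
    ⟨fun a b => by rw [hy, ← det_smul_conjAct]; rfl, htr⟩
  obtain ⟨σ, hσ, h⟩ := exists_mem_trace_ne_zero p hp2 hline hnsq (fixRoots (p ^ (n + 1)))
    (commutator_mem_fixRoots _) hH y hy' fun ⟨X, hXt, hX⟩ =>
      hne ⟨X, hXt, fun σ => by rw [hX σ, ← det_smul_conjAct]; rfl⟩
  exact ⟨σ, hσ, h⟩

section Residual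

omit [Finite k]

variable (ρbar : ResidualGaloisRep k) (b : Basis (Fin 2) k ρbar.V)

/-- The matrix form of a residual representation. -/
noncomputable def matrixHom : GalQ →* M2 k where
  toFun σ := LinearMap.toMatrix b b (ρbar.ρ σ)
  map_one' := by rw [map_one]; exact LinearMap.toMatrix_one _
  map_mul' σ τ := by rw [map_mul]; exact LinearMap.toMatrix_mul _ _ _

theorem matrixHom_apply (σ : GalQ) :
    matrixHom ρbar b σ = LinearMap.toMatrix b b (ρbar.ρ σ) := rfl

/-- Absolute irreducibility, also on subgroups of index two, gives `NoStableLine`. -/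
theorem noStableLine_matrixHom (habs : ρbar.IsAbsolutelyIrreducible)
    (hTW : ∀ (K : Type) [Field K] [Algebra k K] (G : Subgroup GalQ), G.index = 2 →
      ∀ V : Submodule K (ρbar.baseChange K).V,
        (∀ σ ∈ G, ∀ x ∈ V, (ρbar.baseChange K).ρ σ x ∈ V) → V = ⊥ ∨ V = ⊤) :
    NoStableLine (matrixHom ρbar b) := by
  intro H hH v hv
  by_contra hcon
  push Not at hcon
  let K := AlgebraicClosure k
  let bK : Basis (Fin 2) K (ρbar.baseChange K).V := Algebra.TensorProduct.basis K b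
  let x : (ρbar.baseChange K).V := bK.equivFun.symm v
  have hx : x ≠ 0 := fun e => hv (by
    rw [← bK.equivFun.apply_symm_apply v]
    show bK.equivFun x = 0
    rw [e, map_zero])
  have hstab : ∀ σ ∈ H, ∀ w ∈ Submodule.span K {x},
      (ρbar.baseChange K).ρ σ w ∈ Submodule.span K {x} := by
    intro σ hσ w hw
    obtain ⟨a, rfl⟩ := Submodule.mem_span_singleton.1 hw
    obtain ⟨c, hc⟩ := hcon σ hσ
    rw [map_smul]
    refine Submodule.smul_mem _ _ (Submodule.mem_span_singleton.2 ⟨c, bK.equivFun.injective ?_⟩)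
    have hm : LinearMap.toMatrix bK bK ((ρbar.baseChange K).ρ σ) =
        (matrixHom ρbar b σ).map (algebraMap k K) :=
      LinearMap.toMatrix_baseChange _ (ρbar.ρ σ) b b
    rw [map_smul, show bK.equivFun x = v from bK.equivFun.apply_symm_apply v, ← hc, ← hm]
    have h := LinearMap.toMatrix_mulVec_repr bK bK ((ρbar.baseChange K).ρ σ) x
    rw [show ⇑(bK.repr x) = v from bK.equivFun.apply_symm_apply v] at h
    exact h
  have htop : Submodule.span K {x} = ⊥ ∨ Submodule.span K {x} = ⊤ := by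
    rcases hH with rfl | hH
    · exact habs _ fun σ w hw => hstab σ (Subgroup.mem_top σ) w hw
    · exact hTW K H hH _ hstab
  rcases htop with h | h
  · exact hx (Submodule.span_singleton_eq_bot.1 h)
  · have h1 := finrank_span_singleton (K := K) hx
    rw [h, finrank_top, (ρbar.baseChange K).finrank_eq] at h1
    omega

/-- The determinant of the matrix form is the cyclotomic character modulo `p`. -/
theorem det_matrixHom (p : ℕ) (hdet : (GaloisRepAdic.ofResidualGaloisRep ρbar).DetIsCyclotomic p) :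
    (p : k) = 0 ∧ ∀ (σ : GalQ) (a : ℕ), (∀ μ : AlgebraicClosure ℚ, μ ^ p = 1 → σ μ = μ ^ a) →
      (matrixHom ρbar b σ).det = (a : k) := by
  have hp0 : (p : k) = 0 := by
    have h := hdet.1
    rwa [(IsLocalRing.isField_iff_maximalIdeal_eq).1 (Field.toIsField k), Ideal.mem_bot] at h
  refine ⟨hp0, fun σ a ha => ?_⟩
  have h : LinearMap.det (ρbar.ρ σ) - (a : k) ∈ Ideal.span {((p ^ 1 : ℕ) : k)} :=
    hdet.2 1 σ a (by rwa [pow_one])
  rw [pow_one, hp0, Ideal.span_singleton_zero, Ideal.mem_bot, sub_eq_zero] at h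
  rw [matrixHom_apply, LinearMap.det_toMatrix, h]

end Residual

end Fermat.Agent.TWElement
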