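import Fermat.Agent.TWAssembly.Assembly
import Fermat.Agent.TWElement.Main

/-!
# Taylor–Wiles elements for a residual representation

The matrix form of an absolutely irreducible residual representation which stays so on subgroups of
index two satisfies `TWElementProp`: every nonzero class of the twisted adjoint representation is
detected by an element fixing `ζ_{p^(n+1)}` with distinct eigenvalues.
-/

set_option autoImplicit false

open IsLocalRing Module

namespace Fermat.Agent.TWElement

/-- The Taylor-Wiles element property for the matrix form of `ρ̄`. -/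
theorem twElementProp_rbOf {𝒪 : Type} [CommRing 𝒪] [IsDomain 𝒪] [IsDiscreteValuationRing 𝒪]
    [IsAdicComplete (maximalIdeal 𝒪) 𝒪] [Finite (ResidueField 𝒪)]
    (p : ℕ) [Fact p.Prime] (hp2 : p ≠ 2) (ρbar : ResidualGaloisRep (ResidueField 𝒪))
    (habs : ρbar.IsAbsolutelyIrreducible)
    (hdet : (GaloisRepAdic.ofResidualGaloisRep ρbar).DetIsCyclotomic p)
    (hTW : ∀ (K : Type) [Field K] [Algebra (ResidueField 𝒪) K]
      (G : Subgroup (AlgebraicClosure ℚ ≃ₐ[ℚ] AlgebraicClosure ℚ)), G.index = 2 →
      ∀ V : Submodule K (ρbar.baseChange K).V,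
        (∀ σ ∈ G, ∀ x ∈ V, (ρbar.baseChange K).ρ σ x ∈ V) → V = ⊥ ∨ V = ⊤)
    (b : Basis (Fin 2) (ResidueField 𝒪) ρbar.V) :
    TWAssembly.TWElementProp (TWAssembly.rbOf ρbar b) p := by
  intro y hy hne n
  obtain ⟨hp0, hd⟩ := det_matrixHom ρbar b p hdet
  exact exists_twElement p hp2 hp0 (matrixHom ρbar b) hd (noStableLine_matrixHom ρbar b habs hTW)
    y hy.2.1 hy.1 hne n

end Fermat.Agent.TWElement
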