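import Fermat.Agent.TWElement.Dickson

/-!
# The size of the torus in a finite subgroup of `SL₂`

`card_unip_le`: in a finite subgroup of `SL₂(k)` which is not upper triangular, whose elements of
trace `2` are conjugate into the group `U ≠ 1` of upper unitriangular elements, one has
`#U ≤ 2 d + 1`, where `d` is the number of squares of upper left entries of triangular elements.
-/

set_option autoImplicit false

open Matrix

namespace Fermat.Agent.TWElement

variable {S : Type*} [Group S] [Finite S] {k : Type*} [Field k] {ρ : S →* M2 k}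

section

variable (hinj : Function.Injective ρ) (hdet : ∀ x, (ρ x).det = 1)

include hinj hdet

theorem card_cent_torus {u s : S} (hu : u ∈ unip ρ) (hu1 : u ≠ 1) (hs : s ∈ upper ρ)
    (hsd : ρ s 0 0 ^ 2 ≠ 1) :
    Nat.card (cent s) = Nat.card (scalars ρ) * (Set.range (torusSq ρ)).ncard := by
  obtain ⟨hns, hc⟩ := cent_unip hinj hdet hu hu1
  have hs10 : ρ s 1 0 = 0 := hs
  have hs11 : ρ s 0 0 * ρ s 1 1 = 1 := by
    have h := hdet s; rwa [det_fin_two, hs10, mul_zero, sub_zero] at h
  have hdiag : ρ s 0 0 ≠ ρ s 1 1 := fun e => hsd (by rw [sq]; nth_rw 2 [e]; exact hs11)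
  have hsns : s ∉ scalars ρ := fun h => hdiag h.2.2
  have hle : cent s ≤ upper ρ := fun y hy => by
    have h' : ρ y * ρ s = ρ s * ρ y := by rw [← map_mul, ← map_mul, mem_cent.1 hy]
    obtain ⟨a, b, hab⟩ := exists_eq_of_commute hsns h'
    rw [mem_upper, hab]
    simp [hs10]
  let sU : upper ρ := ⟨s, hs⟩
  let ι : cent s →* upper ρ := Subgroup.inclusion hle
  set f : cent s →* kˣ := ((torusSq ρ).comp ι).toHomUnits with hf
  have hker : Nat.card f.ker = Nat.card (scalars ρ) := by
    refine Nat.card_congr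
      { toFun := fun y => ⟨(y.1 : S), ?_⟩
        invFun := fun z => ⟨⟨z.1, scalars_le_cent hinj s z.2⟩, ?_⟩
        left_inv := fun _ => rfl
        right_inv := fun _ => rfl }
    · by_contra hy
      have h1 : torusSq ρ (ι y.1) = 1 := congrArg Units.val y.2
      have h2 : (y.1 : S) ∈ upper ρ := hle y.1.2
      have h3 : ρ (y.1 : S) 0 0 * ρ (y.1 : S) 1 1 = 1 := by
        have h := hdet (y.1 : S); rwa [det_fin_two, (mem_upper ρ).1 h2, mul_zero, sub_zero] at h
      have h4 : ρ (y.1 : S) 0 0 ^ 2 = 1 := h1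
      have h5 : (y.1 : S) ∈ cent u := (hc _).2 ⟨h2,
        mul_left_cancel₀ (left_ne_zero_of_mul_eq_one h3) (by rw [h3, ← sq, h4]), h4⟩
      have h6 : s ∈ cent u := by
        rw [← cent_eq hinj hns hy h5, cent_eq hinj hsns hy y.1.2]
        exact mem_cent_self s
      exact hdiag ((hc s).1 h6).2.1
    · refine MonoidHom.mem_ker.2 (Units.ext ?_)
      obtain ⟨a, ha⟩ := (isScalar_iff_exists _).1 z.2
      have h := hdet z.1
      rw [ha, det_smul, det_one, mul_one, Fintype.card_fin] at h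
      show ρ z.1 0 0 ^ 2 = 1
      rw [ha]; simpa using h
  have hrange : (f.range : Set kˣ).ncard = (Set.range (torusSq ρ)).ncard := by
    rw [← Set.ncard_image_of_injective _ Units.val_injective]
    congr 1
    ext a
    simp only [MonoidHom.coe_range, Set.mem_image, Set.mem_range]
    constructor
    · rintro ⟨_, ⟨y, rfl⟩, rfl⟩
      exact ⟨ι y, rfl⟩
    · rintro ⟨x, rfl⟩
      let φ : unip ρ → unip ρ := fun v => ⟨(v : S) * s * (v : S)⁻¹ * s⁻¹, by
        let vU : upper ρ := ⟨v, unip_le_upper ρ v.2⟩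
        have e : ∀ D : upper ρ →* k, D vU = 1 → D (vU * sU * vU⁻¹ * sU⁻¹) = 1 := fun D hD => by
          have hD' : D vU⁻¹ = 1 := by
            have e := congrArg D (mul_inv_cancel vU)
            rwa [map_mul, hD, one_mul, map_one] at e
          rw [map_mul, map_mul, map_mul, hD, hD', mul_one, one_mul, ← map_mul, mul_inv_cancel,
            map_one]
        exact ⟨(vU * sU * vU⁻¹ * sU⁻¹).2, e (diag₀ ρ) v.2.2.1, e (diag₁ ρ) v.2.2.2⟩⟩
      have hφ : Function.Injective φ := by
        intro v w e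
        have e1 : (v : S) * s * (v : S)⁻¹ = (w : S) * s * (w : S)⁻¹ :=
          mul_right_cancel (congrArg Subtype.val e)
        have h1 : (w : S)⁻¹ * v ∈ cent s := mem_cent.2 (by
          calc (w : S)⁻¹ * v * s = (w : S)⁻¹ * ((v : S) * s * (v : S)⁻¹) * v := by group
            _ = s * ((w : S)⁻¹ * v) := by rw [e1]; group)
        have h2 : (w : S)⁻¹ * v ∈ unip ρ := (unip ρ).mul_mem ((unip ρ).inv_mem w.2) v.2
        by_contra hne
        have hne' : (w : S)⁻¹ * v ≠ 1 := fun h => hne (Subtype.ext (inv_mul_eq_one.1 h).symm)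
        obtain ⟨hns', hc'⟩ := cent_unip hinj hdet h2 hne'
        exact hdiag ((hc' s).1 (mem_cent.2 (mem_cent.1 h1).symm)).2.1
      let xU : upper ρ := x
      have hw : (x : S)⁻¹ * s * x * s⁻¹ ∈ unip ρ := by
        have e : ∀ D : upper ρ →* k, D (x⁻¹ * sU * x * sU⁻¹) = 1 := fun D => by
          rw [map_mul, map_mul, map_mul, mul_right_comm (D x⁻¹), ← map_mul, inv_mul_cancel,
            map_one, one_mul, ← map_mul, mul_inv_cancel, map_one]
        exact ⟨(x⁻¹ * sU * x * sU⁻¹).2, e (diag₀ ρ), e (diag₁ ρ)⟩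
      obtain ⟨v, hv⟩ := (Finite.injective_iff_surjective.1 hφ) ⟨_, hw⟩
      have hv' : (v : S) * s * (v : S)⁻¹ = (x : S)⁻¹ * s * x :=
        mul_right_cancel (congrArg Subtype.val hv)
      refine ⟨f ⟨(x : S) * v, mem_cent.2 ?_⟩, ⟨_, rfl⟩, ?_⟩
      · calc (x : S) * v * s = (x : S) * ((v : S) * s * (v : S)⁻¹) * v := by group
          _ = s * ((x : S) * v) := by rw [hv']; group
      · show torusSq ρ (⟨(x : S) * v, _⟩ : upper ρ) = torusSq ρ x
        have e : (⟨(x : S) * v, (upper ρ).mul_mem x.2 (unip_le_upper ρ v.2)⟩ : upper ρ) =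
            x * ⟨v, unip_le_upper ρ v.2⟩ := rfl
        rw [e, map_mul]
        have : torusSq ρ ⟨(v : S), unip_le_upper ρ v.2⟩ = 1 := by
          show ρ (v : S) 0 0 ^ 2 = 1
          rw [v.2.2.1, one_pow]
        rw [this, mul_one]
  rw [← Subgroup.card_mul_index f.ker, hker, Subgroup.index_ker, ← hrange, ← Nat.card_coe_set_eq]
  rfl

end

/-! ### The class equation of the blocks -/

/-- The nonscalar elements are `#S - #scalars` in number. -/
theorem ncard_compl_scalars : (((scalars ρ : Set S)ᶜ.ncard : ℕ) : ℚ) =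
    Nat.card S - Nat.card (scalars ρ) := by
  have h := Set.ncard_add_ncard_compl (scalars ρ : Set S)
  rw [← h, ← Nat.card_coe_set_eq (scalars ρ : Set S)]
  push_cast
  simp

/-- A set of nonscalar elements, disjoint from the blocks of the elements outside it, contains all
of them as soon as it leaves less room than a quarter of the group. -/
theorem ncard_eq_of_blocks {T : Set S} (hT : T ⊆ (scalars ρ : Set S)ᶜ)
    (hblock : ∀ x, x ∉ scalars ρ → x ∉ T →
      Disjoint T (block ρ x) ∧ (Nat.card S : ℚ) / 4 ≤ (block ρ x).ncard)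
    (hbig : (Nat.card S : ℚ) - Nat.card (scalars ρ) < T.ncard + Nat.card S / 4) :
    (T.ncard : ℚ) = Nat.card S - Nat.card (scalars ρ) := by
  rw [← ncard_compl_scalars] at hbig ⊢
  congr 1
  refine congrArg Set.ncard (Set.Subset.antisymm hT fun x hx => ?_)
  by_contra hxT
  obtain ⟨hdisj, hge⟩ := hblock x hx hxT
  have hle : (T ∪ block ρ x).ncard ≤ ((scalars ρ : Set S)ᶜ).ncard :=
    Set.ncard_le_ncard (Set.union_subset hT fun y hy => hy.1)
  rw [Set.ncard_union_eq hdisj] at hle
  have hle' : ((T.ncard : ℚ) + (block ρ x).ncard) ≤ ((scalars ρ : Set S)ᶜ).ncard := by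
    exact_mod_cast hle
  linarith

/-- The class formula for one block: its size times the order of the normaliser of the centraliser
is `#S #scalars (c - 1)`. -/
theorem ncard_block_mul_normalizer (hinj : Function.Injective ρ) {x : S} (hx : x ∉ scalars ρ)
    {c : ℕ} (hc : Nat.card (cent x) = Nat.card (scalars ρ) * c) :
    ((block ρ x).ncard : ℚ) * Nat.card (Subgroup.normalizer (cent x : Set S)) =
      Nat.card S * Nat.card (scalars ρ) * ((c : ℚ) - 1) := by
  have h := block_mul_normalizer hinj hx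
  rw [hc] at h
  have hc1 : 1 ≤ c := Nat.pos_of_ne_zero fun e =>
    Nat.card_pos.ne' (by rw [hc, e, mul_zero])
  rw [← Nat.mul_sub_one] at h
  have h' := congrArg (Nat.cast : ℕ → ℚ) h
  push_cast [Nat.cast_sub hc1] at h'
  rw [h']; ring

section

variable (hinj : Function.Injective ρ) (hdet : ∀ x, (ρ x).det = 1) {u : S} (hu : u ∈ unip ρ)
  (hu1 : u ≠ 1)

include hinj hdet hu hu1

/-- The block of a unipotent element has `#S (q - 1) / (q d)` elements. -/
theorem ncard_block_unip (p : ℕ) (hodd : Odd p) (hpk : (p : k) = 0) :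
    ((block ρ u).ncard : ℚ) = Nat.card S * ((Nat.card (unip ρ) : ℚ) - 1) /
      (Nat.card (unip ρ) * (Set.range (torusSq ρ)).ncard) := by
  have h := ncard_block_mul_normalizer hinj (cent_unip hinj hdet hu hu1).1
    (card_cent_unip hinj hdet p hodd hpk hu hu1)
  rw [normalizer_cent_unip hinj hdet hu hu1, card_upper hinj hdet p hodd hpk hu hu1] at h
  push_cast at h
  have hz : (Nat.card (scalars ρ) : ℚ) ≠ 0 := Nat.cast_ne_zero.2 Nat.card_pos.ne'
  have hq : (Nat.card (unip ρ) : ℚ) ≠ 0 := Nat.cast_ne_zero.2 Nat.card_pos.ne'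
  have hd : ((Set.range (torusSq ρ)).ncard : ℚ) ≠ 0 := Nat.cast_ne_zero.2
    ((Set.range_nonempty _).ncard_pos (Set.finite_range _)).ne'
  rw [eq_div_iff (mul_ne_zero hq hd)]
  exact mul_right_cancel₀ hz (by linear_combination h)

omit [Finite S] in
/-- Outside the block of the unipotent elements no trace is `± 2`. -/
theorem trace_sq_ne_four (h2 : (2 : k) ≠ 0)
    (hconj : ∀ x, (ρ x).trace = 2 → ∃ g, g * x * g⁻¹ ∈ unip ρ) {x : S} (hx : x ∉ scalars ρ)
    (hxb : x ∉ block ρ u) : (ρ x).trace ^ 2 ≠ 4 := by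
  intro ht
  obtain ⟨hns, -⟩ := cent_unip hinj hdet hu hu1
  have hx2 : (ρ (x * x)).trace = 2 := by
    have hd := hdet x
    rw [det_fin_two] at hd
    rw [trace_fin_two] at ht
    rw [map_mul, trace_fin_two]
    simp only [mul_apply, Fin.sum_univ_two]
    linear_combination ht - 2 * hd
  obtain ⟨g, hg⟩ := hconj _ hx2
  have hne : g * (x * x) * g⁻¹ ≠ 1 := by
    intro e
    have hxx : ρ x * ρ x = 1 := by
      rw [← map_mul, show x * x = g⁻¹ * (g * (x * x) * g⁻¹) * g by group, e, mul_one,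
        inv_mul_cancel, map_one]
    have e01 := congrFun (congrFun hxx 0) 1
    have e10 := congrFun (congrFun hxx 1) 0
    have e00 := congrFun (congrFun hxx 0) 0
    have e11 := congrFun (congrFun hxx 1) 1
    simp [mul_apply, Fin.sum_univ_two] at e01 e10 e00 e11
    rw [trace_fin_two] at ht
    have hT : ρ x 0 0 + ρ x 1 1 ≠ 0 := fun h => h2 (pow_eq_zero_iff (n := 2) two_ne_zero |>.1
      (by rw [h] at ht; linear_combination -ht))
    refine hx ⟨?_, ?_, ?_⟩
    · exact (mul_eq_zero.1 (by linear_combination e01 :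
        (ρ x 0 0 + ρ x 1 1) * ρ x 0 1 = 0)).resolve_left hT
    · exact (mul_eq_zero.1 (by linear_combination e10 :
        (ρ x 0 0 + ρ x 1 1) * ρ x 1 0 = 0)).resolve_left hT
    · exact sub_eq_zero.1 ((mul_eq_zero.1 (by linear_combination e00 - e11 :
        (ρ x 0 0 + ρ x 1 1) * (ρ x 0 0 - ρ x 1 1) = 0)).resolve_left hT)
  obtain ⟨hns2, hc2⟩ := cent_unip hinj hdet hg hne
  refine hxb ⟨hx, g⁻¹, ?_⟩
  have hcc : cent u = cent (g * (x * x) * g⁻¹) := by
    refine cent_eq hinj hns2 hns ((hc2 u).2 ⟨unip_le_upper ρ hu, ?_, ?_⟩)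
    · rw [hu.2.1, hu.2.2]
    · rw [hu.2.1, one_pow]
  rw [hcc, mem_cent, inv_inv]
  group

/-- The block of any other nonscalar element has `#S (c - 1) / (n c)` elements, where `c ≥ 2` is the
order of its centraliser modulo scalars and `n ≤ 2` the index in its normaliser. -/
theorem exists_ncard_block (h2 : (2 : k) ≠ 0)
    (hconj : ∀ x, (ρ x).trace = 2 → ∃ g, g * x * g⁻¹ ∈ unip ρ) {x : S} (hx : x ∉ scalars ρ)
    (hxb : x ∉ block ρ u) : ∃ (c n : ℕ), 2 ≤ c ∧ (n = 1 ∨ n = 2) ∧
      Nat.card (cent x) = Nat.card (scalars ρ) * c ∧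
      ((block ρ x).ncard : ℚ) = Nat.card S * ((c : ℚ) - 1) / (n * c) := by
  obtain ⟨n, hn, hN⟩ :=
    card_normalizer_cent hinj h2 hdet hx (trace_sq_ne_four hinj hdet hu hu1 h2 hconj hx hxb)
  obtain ⟨c, hc⟩ := Subgroup.card_dvd_of_le (scalars_le_cent hinj x)
  have hc2 : 2 ≤ c := by
    by_contra h
    push Not at h
    interval_cases c
    · exact absurd hc (by rw [mul_zero]; exact Nat.card_pos.ne')
    · have := Subgroup.eq_of_le_of_card_ge (scalars_le_cent hinj x) (by rw [hc, mul_one])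
      exact hx (this ▸ mem_cent_self x)
  refine ⟨c, n, hc2, hn, hc, ?_⟩
  have h := ncard_block_mul_normalizer hinj hx hc
  rw [hN, hc] at h
  push_cast at h
  have hz : (Nat.card (scalars ρ) : ℚ) ≠ 0 := Nat.cast_ne_zero.2 Nat.card_pos.ne'
  have hn0 : (0 : ℚ) < n := by rcases hn with rfl | rfl <;> norm_num
  rw [eq_div_iff (by positivity)]
  exact mul_right_cancel₀ hz (by linear_combination h)

/-- These blocks are at least a quarter of the group. -/
theorem card_div_four_le_ncard_block (h2 : (2 : k) ≠ 0)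
    (hconj : ∀ x, (ρ x).trace = 2 → ∃ g, g * x * g⁻¹ ∈ unip ρ) {x : S} (hx : x ∉ scalars ρ)
    (hxb : x ∉ block ρ u) : (Nat.card S : ℚ) / 4 ≤ (block ρ x).ncard := by
  obtain ⟨c, n, hc, hn, -, hb⟩ := exists_ncard_block hinj hdet hu hu1 h2 hconj hx hxb
  have hc' : (2 : ℚ) ≤ c := by exact_mod_cast hc
  have hn' : (0 : ℚ) < n ∧ (n : ℚ) ≤ 2 := by rcases hn with rfl | rfl <;> norm_num
  rw [hb, div_le_div_iff₀ (by norm_num) (mul_pos hn'.1 (by linarith))]
  have : (n : ℚ) * c ≤ 4 * ((c : ℚ) - 1) := by nlinarith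
  nlinarith

/-- If the torus is nontrivial, one of its elements has centraliser of order `d` modulo scalars
and lies outside the block of the unipotent elements. -/
theorem exists_torus_element (hd : 2 ≤ (Set.range (torusSq ρ)).ncard) :
    ∃ s, s ∉ scalars ρ ∧ s ∉ block ρ u ∧
      Nat.card (cent s) = Nat.card (scalars ρ) * (Set.range (torusSq ρ)).ncard := by
  obtain ⟨s, hsd⟩ : ∃ s : upper ρ, torusSq ρ s ≠ 1 := by
    by_contra h
    push Not at h
    have : Set.range (torusSq ρ) ⊆ {1} := by rintro _ ⟨y, rfl⟩; exact h y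
    have := Set.ncard_le_ncard this (Set.finite_singleton 1)
    rw [Set.ncard_singleton] at this
    omega
  obtain ⟨-, hcu⟩ := cent_unip hinj hdet hu hu1
  have hs10 : ρ (s : S) 1 0 = 0 := s.2
  have hs11 : ρ (s : S) 0 0 * ρ (s : S) 1 1 = 1 := by
    have h := hdet s; rwa [det_fin_two, hs10, mul_zero, sub_zero] at h
  have hsne : ρ (s : S) 0 0 ≠ ρ (s : S) 1 1 := fun e => hsd (by
    show ρ (s : S) 0 0 ^ 2 = 1
    rw [sq]; nth_rw 2 [e]; exact hs11)
  refine ⟨s, fun h => hsne h.2.2, ?_, card_cent_torus hinj hdet hu hu1 s.2 hsd⟩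
  rintro ⟨-, g, hg⟩
  obtain ⟨h10, he, hsq⟩ := (hcu _).1 hg
  rw [mem_upper] at h10
  have ht : (ρ (g⁻¹ * (s : S) * g)).trace = (ρ (s : S)).trace := by
    rw [map_mul, map_mul, trace_mul_cycle, ← map_mul, mul_inv_cancel, map_one, one_mul]
  rw [trace_fin_two, trace_fin_two, ← he, ← two_mul] at ht
  refine sub_ne_zero.2 hsne (sq_eq_zero_iff.1 ?_)
  linear_combination 4 * hsq - 4 * hs11 - (2 * ρ (g⁻¹ * (s : S) * g) 0 0 + ρ (s : S) 0 0 +
    ρ (s : S) 1 1) * ht

end

/-! ### The numerical contradictions -/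

/-- The class equation is impossible when the nonscalar elements are unipotent up to conjugation
and scalars, or when the only other block is that of a self-normalising torus. -/
theorem dickson_arith₁ {G z q d : ℚ} (hG : 0 < G) (hq : 0 < q) (hd : 0 < d)
    (hGB : 2 * (z * q * d) ≤ G) (h : G - G / (q * d) = G - z) : False := by
  have : G = z * (q * d) := by rw [show z = G / (q * d) by linarith]; field_simp
  nlinarith

/-- The class equation is impossible when the only blocks are those of the unipotent elements and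
of a torus of index two in its normaliser. -/
theorem dickson_arith₂ {G z q d : ℚ} (hG : 0 < G) (hd : 2 ≤ d) (hq : 2 * d + 2 ≤ q)
    (hGB : 2 * (z * q * d) ≤ G) (h : G / 2 + G / (2 * d) - G / (q * d) = G - z) : False := by
  have h1 : G * (q * d - q + 2) = 2 * q * d * z := by
    have hq0 : q ≠ 0 := by linarith
    have hd0 : d ≠ 0 := by linarith
    rw [show z = G - (G / 2 + G / (2 * d) - G / (q * d)) by linarith]
    field_simp
    ring
  have h3 : q * d - q + 2 ≥ 2 := by nlinarith
  nlinarith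

/-- The class equation is impossible with one further block, whose centraliser has order `e`
modulo scalars and index `n` in its normaliser. -/
theorem dickson_arith₃ {G z q d : ℚ} {e n : ℕ} (hG : 0 < G) (hz : 0 < z) (hd : 2 ≤ d)
    (hq : 2 * d + 2 ≤ q) (hde : d + 1 ≤ e ∨ (e : ℚ) ≤ d) (he : 2 ≤ e) (hn : n = 1 ∨ n = 2)
    (hGB : 2 * (z * q * d) ≤ G)
    (h : G / 2 + G / (2 * d) - G / (q * d) + G * ((e : ℚ) - 1) / (n * e) = G - z) : False := by
  have he0 : (2 : ℚ) ≤ e := by exact_mod_cast he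
  have hq0 : 0 < q := by linarith
  have hd0 : 0 < d := by linarith
  have hqd : G / (q * d) ≤ G / (2 * d) :=
    div_le_div_of_nonneg_left hG.le (by positivity) (by nlinarith)
  rcases hn with rfl | rfl
  · have hbig : G / 2 ≤ G * ((e : ℚ) - 1) / ((1 : ℕ) * e) := by
      rw [Nat.cast_one, one_mul, div_le_div_iff₀ (by norm_num) (by linarith)]
      nlinarith
    linarith
  · have hkey : G * (q * d - q * e + 2 * e) = 2 * q * d * e * z := by
      rw [show z = G - (G / 2 + G / (2 * d) - G / (q * d) +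
        G * ((e : ℚ) - 1) / ((2 : ℕ) * e)) by linarith]
      push_cast
      field_simp
      ring
    have hpos : (0 : ℚ) < q * d - q * e + 2 * e := by
      by_contra h
      push Not at h
      have : (0 : ℚ) < 2 * q * d * e * z := by positivity
      nlinarith
    rcases hde with hde | hde
    · nlinarith
    · nlinarith [mul_nonneg (by linarith : (0 : ℚ) ≤ d - e) hq0.le]

/-- Dickson's count: the torus normalising the group of unipotents has at least `(q - 1) / 2`
elements modulo scalars. -/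
theorem card_unip_le (hinj : Function.Injective ρ) (h2 : (2 : k) ≠ 0)
    (hdet : ∀ x, (ρ x).det = 1) (p : ℕ) (hodd : Odd p) (hpk : (p : k) = 0)
    (hconj : ∀ x, (ρ x).trace = 2 → ∃ g, g * x * g⁻¹ ∈ unip ρ)
    (hU : ∃ u ∈ unip ρ, u ≠ 1) (hB : upper ρ ≠ ⊤) :
    Nat.card (unip ρ) ≤ 2 * (Set.range (torusSq ρ)).ncard + 1 := by
  by_contra hlt
  push Not at hlt
  obtain ⟨u, hu, hu1⟩ := hU
  obtain ⟨hns, -⟩ := cent_unip hinj hdet hu hu1
  have hge := fun {x} => card_div_four_le_ncard_block (x := x) hinj hdet hu hu1 h2 hconj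
  have hUb := ncard_block_unip hinj hdet hu hu1 p hodd hpk
  have hcov := fun {T} => ncard_eq_of_blocks (ρ := ρ) (T := T)
  have hGB := Subgroup.card_mul_index (upper ρ)
  rw [card_upper hinj hdet p hodd hpk hu hu1] at hGB
  set q := Nat.card (unip ρ) with hq
  set d := (Set.range (torusSq ρ)).ncard with hd
  set z := Nat.card (scalars ρ) with hz
  set G := Nat.card S with hG
  have hd0 : (0 : ℚ) < d :=
    Nat.cast_pos.2 ((Set.range_nonempty _).ncard_pos (Set.finite_range _))
  have hz0 : (0 : ℚ) < z := Nat.cast_pos.2 Nat.card_pos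
  have hq0 : (0 : ℚ) < q := Nat.cast_pos.2 Nat.card_pos
  have hG0 : (0 : ℚ) < G := Nat.cast_pos.2 Nat.card_pos
  have hlt' : (2 : ℚ) * d + 2 ≤ q := by exact_mod_cast hlt
  have hGB' : 2 * ((z : ℚ) * q * d) ≤ G := by
    have hi : 2 ≤ (upper ρ).index := by
      have := Subgroup.index_ne_zero_of_finite (H := upper ρ)
      have : (upper ρ).index ≠ 1 := fun e => hB (Subgroup.index_eq_one.1 e)
      omega
    exact_mod_cast hGB ▸ (mul_comm 2 _).le.trans (Nat.mul_le_mul_left _ hi)
  have hU' : (G : ℚ) * ((q : ℚ) - 1) / (q * d) = G / d - G / (q * d) := by field_simp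
  rw [hU'] at hUb
  have hsub : ∀ x, block ρ x ⊆ (scalars ρ : Set S)ᶜ := fun x y hy => hy.1
  by_cases hd1 : d = 1
  · -- only unipotent elements
    simp only [hd1, Nat.cast_one, mul_one, div_one] at hlt' hUb hGB'
    have he := hcov (hsub u)
      (fun x hx hxb => ⟨block_disjoint hinj hns hx hxb, hge hx hxb⟩) (by
        have : (G : ℚ) / q ≤ G / 4 := div_le_div_of_nonneg_left hG0.le (by norm_num) (by linarith)
        linarith)
    refine dickson_arith₁ hG0 hq0 one_pos (by rw [mul_one]; exact hGB') ?_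
    rw [mul_one, ← hUb, he]
  -- a torus element
  have hd2 : 2 ≤ d := by
    have : 0 < d := Nat.cast_pos.1 hd0
    omega
  have hd' : (2 : ℚ) ≤ d := by exact_mod_cast hd2
  obtain ⟨s, hsns, hsu, hcs⟩ := exists_torus_element hinj hdet hu hu1 hd2
  obtain ⟨c, n, -, hn, hc, hb⟩ := exists_ncard_block hinj hdet hu hu1 h2 hconj hsns hsu
  obtain rfl : c = d := Nat.eq_of_mul_eq_mul_left Nat.card_pos (hc.symm.trans hcs)
  rw [← hG] at hb
  have hdisj := block_disjoint hinj hns hsns hsu
  have hsub2 := Set.union_subset (hsub u) (hsub s)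
  have hout : ∀ x, x ∉ scalars ρ → x ∉ block ρ u ∪ block ρ s →
      Disjoint (block ρ u ∪ block ρ s) (block ρ x) ∧ (G : ℚ) / 4 ≤ (block ρ x).ncard := by
    intro x hx hxb
    rw [Set.mem_union, not_or] at hxb
    exact ⟨Set.disjoint_union_left.2
      ⟨block_disjoint hinj hns hx hxb.1, block_disjoint hinj hsns hx hxb.2⟩, hge hx hxb.1⟩
  have hsum : ((block ρ u ∪ block ρ s).ncard : ℚ) =
      (block ρ u).ncard + (block ρ s).ncard := by
    rw [Set.ncard_union_eq hdisj, Nat.cast_add]
  have hqd : (G : ℚ) / (q * d) ≤ G / (2 * d) / 2 := by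
    rw [div_div]
    exact div_le_div_of_nonneg_left hG0.le (by positivity) (by nlinarith)
  have hd4 : (G : ℚ) / (2 * d) ≤ G / 4 :=
    div_le_div_of_nonneg_left hG0.le (by norm_num) (by linarith)
  have hGqd : 0 < (G : ℚ) / (q * d) := by positivity
  rcases hn with rfl | rfl
  · -- the torus is its own normaliser
    have hb' : ((block ρ s).ncard : ℚ) = G - G / d := by rw [hb]; field_simp; simp
    have hsum' : ((block ρ u ∪ block ρ s).ncard : ℚ) = G - G / (q * d) := by
      rw [hsum, hUb, hb']; ring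
    exact dickson_arith₁ hG0 hq0 hd0 hGB'
      (hsum' ▸ hcov hsub2 hout (by linarith))
  have hb' : ((block ρ s).ncard : ℚ) = G / 2 - G / (2 * d) := by rw [hb]; field_simp; simp
  have hd'' : (G : ℚ) / (2 * d) * 2 = G / d := by field_simp
  have hsum' : ((block ρ u ∪ block ρ s).ncard : ℚ) = G / 2 + G / (2 * d) - G / (q * d) := by
    rw [hsum, hUb, hb']; linarith
  -- the torus has index two in its normaliser
  by_cases hall : (scalars ρ : Set S)ᶜ ⊆ block ρ u ∪ block ρ s
  · refine dickson_arith₂ hG0 hd' hlt' hGB' (hsum' ▸ ?_)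
    rw [← Set.Subset.antisymm hall hsub2, ncard_compl_scalars]
  -- a further torus
  obtain ⟨x, hx, hxb⟩ := Set.not_subset.1 hall
  obtain ⟨h1, hx4⟩ := hout x hx hxb
  rw [Set.mem_union, not_or] at hxb
  obtain ⟨e, n, he, hn, -, hbx⟩ := exists_ncard_block hinj hdet hu hu1 h2 hconj hx hxb.1
  have hsum3 : ((block ρ u ∪ block ρ s ∪ block ρ x).ncard : ℚ) =
      G / 2 + G / (2 * d) - G / (q * d) + (block ρ x).ncard := by
    rw [Set.ncard_union_eq h1, Nat.cast_add, hsum']
  have hout3 : ∀ y, y ∉ scalars ρ → y ∉ block ρ u ∪ block ρ s ∪ block ρ x →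
      Disjoint (block ρ u ∪ block ρ s ∪ block ρ x) (block ρ y) ∧
        (G : ℚ) / 4 ≤ (block ρ y).ncard := by
    intro y hy hyb
    rw [Set.mem_union, not_or] at hyb
    obtain ⟨g1, g2⟩ := hout y hy hyb.1
    exact ⟨Set.disjoint_union_left.2 ⟨g1, block_disjoint hinj hx hy hyb.2⟩, g2⟩
  have hsum4 := hcov (Set.union_subset hsub2 (hsub x)) hout3 (by rw [hsum3]; linarith)
  rw [hsum3, hbx] at hsum4
  refine dickson_arith₃ hG0 hz0 hd' hlt' ?_ he hn hGB' hsum4
  rcases Nat.lt_or_ge d e with h | h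
  · exact .inl (by exact_mod_cast h)
  · exact .inr (by exact_mod_cast h)

end Fermat.Agent.TWElement
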