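import Fermat.Agent.TWElement.Mat
import Mathlib.GroupTheory.Index
import Mathlib.GroupTheory.Subgroup.Centralizer
import Mathlib.Data.Set.Card
import Mathlib.Algebra.CharP.Basic
import Mathlib.Algebra.Order.Field.Basic
import Mathlib.Tactic.Linarith
import Mathlib.Tactic.Positivity

/-!
# Centralisers and normalisers in a finite subgroup of `SL₂`

For an injective `ρ : S → SL₂(k)` the nonscalar elements are partitioned into the blocks of their
centralisers; the orders of these centralisers and normalisers are the input of Dickson's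
counting argument.
-/

set_option autoImplicit false

open Matrix

namespace Fermat.Agent.TWElement

variable {S : Type*} [Group S] {k : Type*} [Field k] (ρ : S →* M2 k)

/-- The upper triangular elements. -/
def upper : Subgroup S where
  carrier := {x | ρ x 1 0 = 0}
  one_mem' := by simp
  mul_mem' := fun {a b} (ha : ρ a 1 0 = 0) (hb : ρ b 1 0 = 0) => by
    show ρ (a * b) 1 0 = 0
    rw [map_mul]
    simp [mul_apply, Fin.sum_univ_two, ha, hb]
  inv_mem' := fun {a} (ha : ρ a 1 0 = 0) => by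
    show ρ a⁻¹ 1 0 = 0
    have h : ρ a * ρ a⁻¹ = 1 := by rw [← map_mul, mul_inv_cancel, map_one]
    have h00 := congrArg Matrix.det h
    have h10 := congrFun (congrFun h 1) 0
    simp [det_mul, det_fin_two, ha] at h00
    simp [mul_apply, Fin.sum_univ_two, ha] at h10
    rcases h10 with h10 | h10
    · simp [h10] at h00
    · exact h10

/-- Membership of the upper triangular subgroup. -/
theorem mem_upper {x : S} : x ∈ upper ρ ↔ ρ x 1 0 = 0 := Iff.rfl

/-- The entries of a product of upper triangular elements. -/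
theorem upper_mul_entries {x y : S} (hx : x ∈ upper ρ) (hy : y ∈ upper ρ) :
    ρ (x * y) 0 0 = ρ x 0 0 * ρ y 0 0 ∧ ρ (x * y) 1 1 = ρ x 1 1 * ρ y 1 1 ∧
      ρ (x * y) 0 1 = ρ x 0 0 * ρ y 0 1 + ρ x 0 1 * ρ y 1 1 := by
  rw [mem_upper] at hx hy
  simp [map_mul, mul_apply, Fin.sum_univ_two, hx, hy]

/-- The top left entry on upper triangular elements. -/
def diag₀ : upper ρ →* k where
  toFun x := ρ (x : S) 0 0
  map_one' := by simp
  map_mul' x y := (upper_mul_entries ρ x.2 y.2).1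

/-- The bottom right entry on upper triangular elements. -/
def diag₁ : upper ρ →* k where
  toFun x := ρ (x : S) 1 1
  map_one' := by simp
  map_mul' x y := (upper_mul_entries ρ x.2 y.2).2.1

/-- The upper unitriangular elements. -/
def unip : Subgroup S where
  carrier := {x | ρ x 1 0 = 0 ∧ ρ x 0 0 = 1 ∧ ρ x 1 1 = 1}
  one_mem' := by simp
  mul_mem' := fun {a b} ha hb => by
    obtain ⟨e0, e1, -⟩ := upper_mul_entries ρ (x := a) (y := b) ha.1 hb.1
    exact ⟨(upper ρ).mul_mem (x := a) (y := b) ha.1 hb.1, by rw [e0, ha.2.1, hb.2.1, one_mul],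
      by rw [e1, ha.2.2, hb.2.2, one_mul]⟩
  inv_mem' := fun {a} ha => by
    have hi : a⁻¹ ∈ upper ρ := (upper ρ).inv_mem (x := a) ha.1
    obtain ⟨e0, e1, -⟩ := upper_mul_entries ρ (x := a) (y := a⁻¹) ha.1 hi
    rw [mul_inv_cancel, map_one] at e0 e1
    simp [ha.2.1, ha.2.2] at e0 e1
    exact ⟨hi, e0.symm, e1.symm⟩

/-- Unitriangular elements are upper triangular. -/
theorem unip_le_upper : unip ρ ≤ upper ρ := fun _ hx => hx.1

/-- The scalar elements. -/
def scalars : Subgroup S where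
  carrier := {x | IsScalar (ρ x)}
  one_mem' := by simp [IsScalar]
  mul_mem' := fun {a b} ha hb => by
    obtain ⟨u, hu⟩ := (isScalar_iff_exists _).1 ha
    obtain ⟨v, hv⟩ := (isScalar_iff_exists _).1 hb
    refine (isScalar_iff_exists _).2 ⟨u * v, ?_⟩
    rw [map_mul, hu, hv, smul_mul_assoc, one_mul, smul_smul]
  inv_mem' := fun {a} ha => by
    obtain ⟨u, hu⟩ := (isScalar_iff_exists _).1 ha
    refine (isScalar_iff_exists _).2 ⟨u⁻¹, ?_⟩
    have h : ρ a * ρ a⁻¹ = 1 := by rw [← map_mul, mul_inv_cancel, map_one]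
    rw [hu, smul_mul_assoc, one_mul] at h
    have hu0 : u ≠ 0 := fun e => by simp [e] at h
    rw [← h, smul_smul, inv_mul_cancel₀ hu0, one_smul]

/-- The square of the top left entry. -/
def torusSq : upper ρ →* k := (powMonoidHom 2).comp (diag₀ ρ)

/-- The centraliser of an element. -/
abbrev cent (x : S) : Subgroup S := Subgroup.centralizer ({x} : Set S)

/-- Membership of a centraliser. -/
theorem mem_cent {x y : S} : y ∈ cent x ↔ y * x = x * y := by
  rw [cent, Subgroup.mem_centralizer_singleton_iff]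

/-- An element centralises itself. -/
theorem mem_cent_self (x : S) : x ∈ cent x := mem_cent.2 rfl

/-- The nonscalar elements commuting with some conjugate of `x`. -/
def block (x : S) : Set S := {y | y ∉ scalars ρ ∧ ∃ g : S, g⁻¹ * y * g ∈ cent x}

variable {ρ}

theorem scalar_comm (hinj : Function.Injective ρ) {x : S} (hx : x ∈ scalars ρ) (y : S) :
    x * y = y * x := by
  apply hinj
  obtain ⟨u, hu⟩ := (isScalar_iff_exists _).1 hx
  rw [map_mul, map_mul, hu, smul_mul_assoc, mul_smul_comm, one_mul, mul_one]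

/-- Scalars lie in every centraliser. -/
theorem scalars_le_cent (hinj : Function.Injective ρ) (x : S) : scalars ρ ≤ cent x :=
  fun _ hz => mem_cent.2 (scalar_comm hinj hz x)

/-- Nonscalar elements which commute have the same centraliser. -/
theorem cent_eq (hinj : Function.Injective ρ) {x y : S} (hx : x ∉ scalars ρ)
    (hy : y ∉ scalars ρ) (h : y ∈ cent x) : cent y = cent x := by
  have h' : ρ y * ρ x = ρ x * ρ y := by rw [← map_mul, ← map_mul, mem_cent.1 h]
  ext w
  rw [mem_cent, mem_cent]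
  constructor <;> intro hw <;> apply hinj <;>
    have hw' := congrArg ρ hw <;> simp only [map_mul] at hw' ⊢
  · exact commute_of_commute (x := ρ y) hy h'.symm hw'
  · exact commute_of_commute (x := ρ x) hx h' hw'

theorem conj_mem_scalars (hinj : Function.Injective ρ) {y : S} (g : S) :
    g * y * g⁻¹ ∈ scalars ρ ↔ y ∈ scalars ρ := by
  constructor <;> intro h
  · have e := scalar_comm hinj h g
    rw [inv_mul_cancel_right] at e
    rwa [← mul_left_cancel e] at h
  · rwa [← scalar_comm hinj h g, mul_inv_cancel_right]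

theorem mem_normalizer_cent (hinj : Function.Injective ρ) {x w n : S} (hx : x ∉ scalars ρ)
    (hw : w ∈ cent x) (hw' : w ∉ scalars ρ) (h : n * w * n⁻¹ ∈ cent x) :
    n ∈ Subgroup.normalizer (cent x : Set S) := by
  have h1 : cent w = cent x := cent_eq hinj hx hw' hw
  have h2 : cent (n * w * n⁻¹) = cent x :=
    cent_eq hinj hx (fun e => hw' ((conj_mem_scalars hinj n).1 e)) h
  rw [Subgroup.mem_normalizer_iff]
  intro a
  nth_rw 1 [← h1]
  rw [← h2, mem_cent, mem_cent]
  constructor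
  · intro e
    calc n * a * n⁻¹ * (n * w * n⁻¹) = n * (a * w) * n⁻¹ := by group
      _ = n * (w * a) * n⁻¹ := by rw [e]
      _ = n * w * n⁻¹ * (n * a * n⁻¹) := by group
  · intro e
    calc a * w = n⁻¹ * (n * a * n⁻¹ * (n * w * n⁻¹)) * n := by group
      _ = n⁻¹ * (n * w * n⁻¹ * (n * a * n⁻¹)) * n := by rw [e]
      _ = w * a := by group

/-- The size of the block of `x`, by counting conjugates of its centraliser. -/
theorem block_mul_normalizer [Finite S] (hinj : Function.Injective ρ) {x : S}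
    (hx : x ∉ scalars ρ) :
    (block ρ x).ncard * Nat.card (Subgroup.normalizer (cent x : Set S)) =
      Nat.card S * (Nat.card (cent x) - Nat.card (scalars ρ)) := by
  classical
  have hW : (((cent x : Set S) \ (scalars ρ : Set S))).ncard =
      Nat.card (cent x) - Nat.card (scalars ρ) := by
    refine (Nat.eq_sub_of_add_eq ?_)
    exact Set.ncard_sdiff_add_ncard_of_subset (scalars_le_cent hinj x)
  rw [← hW, ← Nat.card_coe_set_eq, ← Nat.card_coe_set_eq, ← Nat.card_prod, ← Nat.card_prod]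
  have hsec : ∀ y : block ρ x, ∃ g : S, g⁻¹ * (y : S) * g ∈ cent x := fun y => y.2.2
  choose sec hsecmem using hsec
  have hn : ∀ {g w : S}, g * w * g⁻¹ ∈ scalars ρ → w ∈ scalars ρ := fun h =>
    (conj_mem_scalars hinj _).1 h
  refine Nat.card_congr
    { toFun := fun yn => (sec yn.1 * yn.2,
        ⟨(yn.2 : S)⁻¹ * ((sec yn.1)⁻¹ * yn.1 * sec yn.1) * yn.2,
          (Subgroup.mem_normalizer_iff''.1 yn.2.2 _).1 (hsecmem yn.1),
          fun h => yn.1.2.1 ((conj_mem_scalars hinj (((sec yn.1) * (yn.2 : S))⁻¹)).1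
            (by rw [show ((sec yn.1) * (yn.2 : S))⁻¹ * (yn.1 : S) * ((sec yn.1) * (yn.2 : S))⁻¹⁻¹ =
              (yn.2 : S)⁻¹ * ((sec yn.1)⁻¹ * yn.1 * sec yn.1) * yn.2 by group]; exact h))⟩)
      invFun := fun gw =>
        (⟨gw.1 * gw.2 * gw.1⁻¹, fun h => gw.2.2.2 (hn h), gw.1, by
          rw [show gw.1⁻¹ * (gw.1 * (gw.2 : S) * gw.1⁻¹) * gw.1 = (gw.2 : S) by group]
          exact gw.2.2.1⟩,
          ⟨(sec ⟨gw.1 * gw.2 * gw.1⁻¹, fun h => gw.2.2.2 (hn h), gw.1, by
            rw [show gw.1⁻¹ * (gw.1 * (gw.2 : S) * gw.1⁻¹) * gw.1 = (gw.2 : S) by group]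
            exact gw.2.2.1⟩)⁻¹ * gw.1,
          mem_normalizer_cent hinj hx gw.2.2.1 gw.2.2.2 (by
            simp only [_root_.mul_inv_rev, inv_inv]
            rw [← mul_assoc, mul_assoc _ gw.1, mul_assoc _ (gw.1 * _)]
            exact hsecmem _)⟩)
      left_inv := fun yn => by
        obtain ⟨⟨y, hy⟩, n, hn'⟩ := yn
        have e : sec ⟨y, hy⟩ * n * (n⁻¹ * ((sec ⟨y, hy⟩)⁻¹ * y * sec ⟨y, hy⟩) * n) *
            (sec ⟨y, hy⟩ * n)⁻¹ = y := by group
        simp only [e, inv_mul_cancel_left]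
      right_inv := fun gw => by
        obtain ⟨g, w, hw⟩ := gw
        simp only [mul_inv_cancel_left, Prod.mk.injEq, Subtype.mk.injEq, true_and]
        group }

/-- Two blocks are equal or disjoint. -/
theorem block_disjoint (hinj : Function.Injective ρ) {x x' : S} (hx : x ∉ scalars ρ)
    (hx' : x' ∉ scalars ρ) (h : x' ∉ block ρ x) : Disjoint (block ρ x) (block ρ x') := by
  rw [Set.disjoint_left]
  rintro y ⟨hy, g, hg⟩ ⟨-, g', hg'⟩
  refine h ⟨hx', g'⁻¹ * g, ?_⟩
  have e : ∀ a : S, a⁻¹ * y * a ∉ scalars ρ := fun a ha =>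
    hy ((conj_mem_scalars hinj a⁻¹).1 (by rwa [inv_inv]))
  have hA : x' ∈ cent (g'⁻¹ * y * g') := by
    rw [cent_eq hinj hx' (e g') hg']; exact mem_cent_self x'
  rw [← cent_eq hinj hx (e g) hg, mem_cent]
  rw [mem_cent] at hA
  calc (g'⁻¹ * g)⁻¹ * x' * (g'⁻¹ * g) * (g⁻¹ * y * g)
        = g⁻¹ * g' * (x' * (g'⁻¹ * y * g')) * g'⁻¹ * g := by group
    _ = g⁻¹ * g' * (g'⁻¹ * y * g' * x') * g'⁻¹ * g := by rw [hA]
    _ = g⁻¹ * y * g * ((g'⁻¹ * g)⁻¹ * x' * (g'⁻¹ * g)) := by group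

/-- The centraliser of a semisimple element has index at most two in its normaliser. -/
theorem card_normalizer_cent [Finite S] (hinj : Function.Injective ρ) (h2 : (2 : k) ≠ 0)
    (hdet : ∀ x, (ρ x).det = 1) {x : S} (hx : x ∉ scalars ρ) (ht : (ρ x).trace ^ 2 ≠ 4) :
    ∃ n : ℕ, (n = 1 ∨ n = 2) ∧
      Nat.card (Subgroup.normalizer (cent x : Set S)) = n * Nat.card (cent x) := by
  set C := cent x with hC
  set N := Subgroup.normalizer (C : Set S)
  have hCN : C ≤ N := Subgroup.le_normalizer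
  have hmem : ∀ n ∈ N, ρ (n * x * n⁻¹) = ρ x ∨ ρ (n * x * n⁻¹) = (ρ x).trace • 1 - ρ x := by
    intro n hn
    have h1 : n * x * n⁻¹ ∈ C := (Subgroup.mem_normalizer_iff.1 hn x).1 (mem_cent_self x)
    refine eq_or_eq_of_commute h2 hx (hdet x) ht ?_ (hdet _) ?_
    · rw [← map_mul, ← map_mul, mem_cent.1 h1]
    · rw [map_mul, map_mul, trace_mul_cycle, ← map_mul, inv_mul_cancel, map_one, one_mul]
  have hfix : ∀ n, ρ (n * x * n⁻¹) = ρ x ↔ n ∈ C := fun n => by
    rw [hC, mem_cent]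
    exact ⟨fun e => by rw [← mul_inv_eq_iff_eq_mul]; exact hinj e,
      fun e => by rw [e, mul_inv_cancel_right]⟩
  refine ⟨(C.subgroupOf N).index, ?_, ?_⟩
  · by_cases hall : ∀ n : N, (n : S) ∈ C
    · exact .inl (Subgroup.index_eq_one.2 (eq_top_iff.2 fun n _ => hall n))
    · push Not at hall
      obtain ⟨a, ha⟩ := hall
      refine .inr (Subgroup.index_eq_two_iff.2 ⟨a⁻¹, fun b => ?_⟩)
      simp only [Subgroup.mem_subgroupOf, Subgroup.coe_mul, Subgroup.coe_inv]
      by_cases hb : (b : S) ∈ C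
      · exact .inr ⟨hb, fun h => ha (C.inv_mem_iff.1 ((C.mul_mem_cancel_left hb).1 h))⟩
      · refine .inl ⟨?_, hb⟩
        have e1 : ρ ((b : S) * x * (b : S)⁻¹) = _ :=
          (hmem _ b.2).resolve_left fun e => hb ((hfix _).1 e)
        have e2 : ρ ((a : S) * x * (a : S)⁻¹) = _ :=
          (hmem _ a.2).resolve_left fun e => ha ((hfix _).1 e)
        have e3 := hinj (e1.trans e2.symm)
        have h4 : (a : S)⁻¹ * b ∈ C := (hfix _).1 (by
          congr 1
          rw [show (a : S)⁻¹ * b * x * ((a : S)⁻¹ * b)⁻¹ =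
            (a : S)⁻¹ * ((b : S) * x * (b : S)⁻¹) * a by group, e3]
          group)
        have h5 : (a : S) * ((a : S)⁻¹ * b) * (a : S)⁻¹ ∈ C :=
          (Subgroup.mem_normalizer_iff.1 a.2 _).1 h4
        rwa [mul_inv_cancel_left] at h5
  · rw [← Subgroup.index_mul_card (C.subgroupOf N),
      Nat.card_congr (Subgroup.subgroupOfEquivOfLe hCN).toEquiv]

theorem pow_entries {x : S} (hx : x ∈ upper ρ) (he : ρ x 1 1 = ρ x 0 0) (n : ℕ) :
    ρ (x ^ n) 1 0 = 0 ∧ ρ (x ^ n) 0 0 = ρ x 0 0 ^ n ∧ ρ (x ^ n) 1 1 = ρ x 0 0 ^ n ∧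
      ρ x 0 0 * ρ (x ^ n) 0 1 = n * ρ x 0 0 ^ n * ρ x 0 1 := by
  induction n with
  | zero => simp
  | succ n ih =>
    obtain ⟨h10, h00, h11, h01⟩ := ih
    obtain ⟨e0, e1, e2⟩ := upper_mul_entries ρ (mem_upper ρ |>.2 h10) hx
    rw [pow_succ x n]
    refine ⟨(upper ρ).mul_mem (mem_upper ρ |>.2 h10) hx, by rw [e0, h00, pow_succ],
      by rw [e1, h11, he, pow_succ], ?_⟩
    rw [e2, h00, he, pow_succ]
    push_cast
    linear_combination ρ x 0 0 * h01

section Count

variable (hinj : Function.Injective ρ) (hdet : ∀ x, (ρ x).det = 1)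
  (p : ℕ) (hodd : Odd p) (hpk : (p : k) = 0)

include hinj hdet

/-- The centraliser of a nontrivial unipotent is `± U`. -/
theorem cent_unip {u : S} (hu : u ∈ unip ρ) (hu1 : u ≠ 1) :
    u ∉ scalars ρ ∧ ∀ y, y ∈ cent u ↔ y ∈ upper ρ ∧ ρ y 0 0 = ρ y 1 1 ∧ ρ y 0 0 ^ 2 = 1 := by
  have hu01 : ρ u 0 1 ≠ 0 := fun e => hu1 (hinj (by
    rw [map_one]; exact ext₂ (by simpa using hu.2.1) (by simpa using e) (by simpa using hu.1)
      (by simpa using hu.2.2)))
  have hns : u ∉ scalars ρ := fun h => hu01 h.1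
  refine ⟨hns, fun y => ⟨fun h => ?_, fun h => ?_⟩⟩
  · have h' : ρ y * ρ u = ρ u * ρ y := by rw [← map_mul, ← map_mul, mem_cent.1 h]
    obtain ⟨a, b, hab⟩ := exists_eq_of_commute hns h'
    have e : ρ y 0 0 = ρ y 1 1 := by simp [hab, hu.2.1, hu.2.2]
    have e10 : ρ y 1 0 = 0 := by simp [hab, hu.1]
    refine ⟨e10, e, ?_⟩
    have hd := hdet y
    rw [det_fin_two, e10, ← e] at hd
    linear_combination hd
  · refine mem_cent.2 (hinj ?_)
    rw [map_mul, map_mul]
    obtain ⟨h10, he, -⟩ := h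
    rw [mem_upper] at h10
    refine ext₂ ?_ ?_ ?_ ?_ <;> simp [mul_apply, Fin.sum_univ_two, hu.1, hu.2.1, hu.2.2, h10, he]
    ring

include hodd hpk in
/-- The order of the centraliser of a nontrivial unipotent. -/
theorem card_cent_unip [Finite S] {u : S} (hu : u ∈ unip ρ) (hu1 : u ≠ 1) :
    Nat.card (cent u) = Nat.card (scalars ρ) * Nat.card (unip ρ) := by
  obtain ⟨-, hc⟩ := cent_unip hinj hdet hu hu1
  have h2 : ∀ z ∈ scalars ρ, z ∈ unip ρ → z = 1 := fun z hz hz' => hinj (by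
    rw [map_one]
    exact ext₂ (by simpa using hz'.2.1) (by simpa using hz.1) (by simpa using hz.2.1)
      (by simpa using hz'.2.2))
  rw [← Nat.card_prod]
  refine (Nat.card_congr (Equiv.ofBijective (fun zu : scalars ρ × unip ρ =>
    (⟨(zu.1 : S) * zu.2, (cent u).mul_mem (scalars_le_cent hinj u zu.1.2)
      ((hc _).2 ⟨zu.2.2.1, by rw [zu.2.2.2.1, zu.2.2.2.2], by rw [zu.2.2.2.1, one_pow]⟩)⟩ :
      cent u)) ⟨?_, ?_⟩)).symm
  · rintro ⟨⟨z, hz⟩, v, hv⟩ ⟨⟨z', hz'⟩, v', hv'⟩ e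
    have e' : z * v = z' * v' := congrArg Subtype.val e
    have hzv : z'⁻¹ * z = v' * v⁻¹ := by
      calc z'⁻¹ * z = z'⁻¹ * (z * v) * v⁻¹ := by group
        _ = v' * v⁻¹ := by rw [e']; group
    have h1 : z'⁻¹ * z = 1 :=
      h2 _ ((scalars ρ).mul_mem ((scalars ρ).inv_mem hz') hz)
        (hzv ▸ (unip ρ).mul_mem hv' ((unip ρ).inv_mem hv))
    obtain rfl : z' = z := inv_mul_eq_one.1 h1
    obtain rfl := mul_left_cancel e'
    rfl
  · rintro ⟨y, hy⟩
    obtain ⟨h10, he, hsq⟩ := (hc y).1 hy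
    rcases sq_eq_one_iff.1 hsq with h1 | h1
    · exact ⟨(⟨1, (scalars ρ).one_mem⟩, ⟨y, h10, h1, he ▸ h1⟩), Subtype.ext (one_mul y)⟩
    · obtain ⟨p10, p00, p11, p01⟩ := pow_entries h10 he.symm p
      rw [h1, hodd.neg_one_pow] at p00 p11
      rw [hpk, zero_mul, zero_mul, h1, neg_mul, one_mul, neg_eq_zero] at p01
      have hps : y ^ p ∈ scalars ρ := ⟨p01, p10, p00.trans p11.symm⟩
      have hq : y ^ p * y ∈ unip ρ := by
        obtain ⟨e0, e1, -⟩ := upper_mul_entries ρ (mem_upper ρ |>.2 p10) h10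
        exact ⟨(upper ρ).mul_mem (mem_upper ρ |>.2 p10) h10, by rw [e0, p00, h1]; ring,
          by rw [e1, p11, ← he, h1]; ring⟩
      refine ⟨(⟨(y ^ p)⁻¹, (scalars ρ).inv_mem hps⟩, ⟨_, hq⟩), Subtype.ext ?_⟩
      exact inv_mul_cancel_left _ _

/-- The normaliser of that centraliser is the triangular subgroup. -/
theorem normalizer_cent_unip {u : S} (hu : u ∈ unip ρ) (hu1 : u ≠ 1) :
    Subgroup.normalizer (cent u : Set S) = upper ρ := by
  obtain ⟨hns, hc⟩ := cent_unip hinj hdet hu hu1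
  ext n
  constructor
  · intro hn
    have h1 := (hc _).1 ((Subgroup.mem_normalizer_iff.1 hn u).1 (mem_cent_self u))
    have e : ρ (n * u * n⁻¹) * ρ n = ρ n * ρ u := by
      rw [← map_mul, ← map_mul, inv_mul_cancel_right]
    have e10 := congrFun (congrFun e 1) 0
    have e11 := congrFun (congrFun e 1) 1
    have h10 := h1.1
    rw [mem_upper] at h10
    simp only [mul_apply, Fin.sum_univ_two, h10, hu.1, hu.2.1, hu.2.2, zero_mul, zero_add,
      mul_one, mul_zero, add_zero] at e10 e11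
    by_contra hne
    rw [mem_upper] at hne
    have hw : ρ (n * u * n⁻¹) 1 1 = 1 := mul_right_cancel₀ hne (by rw [one_mul]; exact e10)
    rw [hw, one_mul] at e11
    have hu01 : ρ u 0 1 = 0 :=
      (mul_eq_zero.1 (by linear_combination -e11 : ρ n 1 0 * ρ u 0 1 = 0)).resolve_left hne
    exact hns ⟨hu01, hu.1, hu.2.1.trans hu.2.2.symm⟩
  · intro hn
    refine mem_normalizer_cent hinj hns (mem_cent_self u) hns ((hc _).2 ?_)
    have hui : u ∈ upper ρ := unip_le_upper ρ hu
    refine ⟨(upper ρ).mul_mem ((upper ρ).mul_mem hn hui) ((upper ρ).inv_mem hn), ?_⟩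
    have e : ∀ (D : upper ρ →* k), D ⟨u, hui⟩ = 1 →
        D (⟨n, hn⟩ * ⟨u, hui⟩ * ⟨n, hn⟩⁻¹) = 1 := fun D hD => by
      rw [map_mul, map_mul, hD, mul_one, ← map_mul, mul_inv_cancel, map_one]
    have e0 : ρ (n * u * n⁻¹) 0 0 = 1 := e (diag₀ ρ) hu.2.1
    have e1 : ρ (n * u * n⁻¹) 1 1 = 1 := e (diag₁ ρ) hu.2.2
    exact ⟨e0.trans e1.symm, by rw [e0, one_pow]⟩

include hodd hpk in
/-- The order of the triangular subgroup. -/
theorem card_upper [Finite S] {u : S} (hu : u ∈ unip ρ) (hu1 : u ≠ 1) :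
    Nat.card (upper ρ) =
      Nat.card (scalars ρ) * Nat.card (unip ρ) * (Set.range (torusSq ρ)).ncard := by
  obtain ⟨-, hc⟩ := cent_unip hinj hdet hu hu1
  rw [← card_cent_unip hinj hdet p hodd hpk hu hu1]
  have hk : Nat.card (cent u) = Nat.card (torusSq ρ).ker := by
    refine Nat.card_congr
      { toFun := fun y => ⟨⟨y.1, ((hc y.1).1 y.2).1⟩, ((hc y.1).1 y.2).2.2⟩
        invFun := fun y => ⟨y.1.1, (hc y.1.1).2 ⟨y.1.2, ?_, y.2⟩⟩
        left_inv := fun _ => rfl
        right_inv := fun _ => rfl }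
    have h1 : ρ (y.1 : S) 0 0 * ρ (y.1 : S) 1 1 = 1 := by
      have h := hdet (y.1 : S)
      have h10 : ρ (y.1 : S) 1 0 = 0 := y.1.2
      rwa [det_fin_two, h10, mul_zero, sub_zero] at h
    have h2 : ρ (y.1 : S) 0 0 ^ 2 = 1 := y.2
    have hne : ρ (y.1 : S) 0 0 ≠ 0 := left_ne_zero_of_mul_eq_one h1
    exact mul_left_cancel₀ hne (by rw [h1, ← sq, h2])
  rw [hk, ← Nat.card_coe_set_eq, ← Subgroup.card_mul_index (torusSq ρ).ker]
  congr 1
  have hker : (torusSq ρ).toHomUnits.ker = (torusSq ρ).ker := by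
    ext y; simp [MonoidHom.mem_ker]
  rw [← hker, Subgroup.index_ker]
  rw [Nat.card_coe_set_eq,
    show Set.range (torusSq ρ) = Units.val '' ((torusSq ρ).toHomUnits.range : Set kˣ) by
      rw [MonoidHom.coe_range, ← Set.range_comp]; rfl,
    Set.ncard_image_of_injective _ Units.val_injective]
  rfl

end Count

end Fermat.Agent.TWElement
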