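import Mathlib.LinearAlgebra.Matrix.Determinant.Basic
import Mathlib.LinearAlgebra.Matrix.NonsingularInverse
import Mathlib.LinearAlgebra.Matrix.Trace
import Mathlib.FieldTheory.IsAlgClosed.Basic
import Mathlib.Tactic.LinearCombination
import Mathlib.Tactic.FieldSimp

/-!
# Elementary facts about two by two matrices

Commutants, eigenvectors and the trace pairing of trace zero matrices over a field, as used in the
study of the adjoint representation.
-/

set_option autoImplicit false

open Matrix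

namespace Fermat.Agent.TWElement

/-- Two by two matrices. -/
abbrev M2 (k : Type*) : Type _ := Matrix (Fin 2) (Fin 2) k

variable {k : Type*} [Field k]

/-- A matrix is scalar. -/
def IsScalar (x : M2 k) : Prop := x 0 1 = 0 ∧ x 1 0 = 0 ∧ x 0 0 = x 1 1

omit [Field k] in
/-- Two by two matrices with the same four entries are equal. -/
theorem ext₂ {x y : M2 k} (h00 : x 0 0 = y 0 0) (h01 : x 0 1 = y 0 1) (h10 : x 1 0 = y 1 0)
    (h11 : x 1 1 = y 1 1) : x = y := by
  ext i j; fin_cases i <;> fin_cases j <;> assumption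

omit [Field k] in
/-- Vectors of length two with the same entries are equal. -/
theorem vecExt₂ {u v : Fin 2 → k} (h0 : u 0 = v 0) (h1 : u 1 = v 1) : u = v := by
  funext i; fin_cases i <;> assumption

/-- A scalar matrix is a multiple of `1`. -/
theorem isScalar_iff_exists (x : M2 k) : IsScalar x ↔ ∃ a : k, x = a • 1 := by
  constructor
  · rintro ⟨h1, h2, h3⟩
    exact ⟨x 0 0, ext₂ (by simp) (by simpa using h1) (by simpa using h2) (by simpa using h3.symm)⟩
  · rintro ⟨a, rfl⟩
    simp [IsScalar]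

/-- The commutant of a nonscalar matrix `x` is spanned by `1` and `x`. -/
theorem exists_eq_of_commute {x y : M2 k} (hx : ¬ IsScalar x) (h : y * x = x * y) :
    ∃ a b : k, y = a • 1 + b • x := by
  have e00 := congrFun (congrFun h 0) 0
  have e01 := congrFun (congrFun h 0) 1
  have e10 := congrFun (congrFun h 1) 0
  simp only [mul_apply, Fin.sum_univ_two] at e00 e01 e10
  by_cases h01 : x 0 1 = 0
  · by_cases h10 : x 1 0 = 0
    · have hd : x 1 1 - x 0 0 ≠ 0 := sub_ne_zero.2 fun e => hx ⟨h01, h10, e.symm⟩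
      refine ⟨y 0 0 - (y 1 1 - y 0 0) / (x 1 1 - x 0 0) * x 0 0,
        (y 1 1 - y 0 0) / (x 1 1 - x 0 0), ext₂ (by simp) ?_ ?_ ?_⟩
      · simp [h01]
        exact (mul_eq_zero.1 (by linear_combination e01 + (y 1 1 - y 0 0) * h01 :
          y 0 1 * (x 1 1 - x 0 0) = 0)).resolve_right hd
      · simp [h10]
        exact (mul_eq_zero.1 (by linear_combination -e10 + (y 1 1 - y 0 0) * h10 :
          y 1 0 * (x 1 1 - x 0 0) = 0)).resolve_right hd
      · simp
        field_simp
        ring
    · refine ⟨y 0 0 - y 1 0 / x 1 0 * x 0 0, y 1 0 / x 1 0, ext₂ (by simp) ?_ ?_ ?_⟩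
      · simp
        field_simp
        linear_combination e00
      · simp [h10]
      · simp
        field_simp
        linear_combination e10
  · refine ⟨y 0 0 - y 0 1 / x 0 1 * x 0 0, y 0 1 / x 0 1, ext₂ (by simp) ?_ ?_ ?_⟩
    · simp [h01]
    · simp
      field_simp
      linear_combination -e00
    · simp
      field_simp
      linear_combination -e01

/-- Two matrices commuting with a nonscalar one commute. -/
theorem commute_of_commute {x y z : M2 k} (hx : ¬ IsScalar x) (hy : y * x = x * y)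
    (hz : z * x = x * z) : z * y = y * z := by
  obtain ⟨a, b, rfl⟩ := exists_eq_of_commute hx hy
  rw [mul_add, add_mul, mul_smul_comm, smul_mul_assoc, mul_smul_comm, smul_mul_assoc, hz, mul_one,
    one_mul]

/-- Conjugating `x` inside its commutant gives only `x` or its adjugate. -/
theorem eq_or_eq_of_commute {x z : M2 k} (h2 : (2 : k) ≠ 0) (hx : ¬ IsScalar x)
    (hd : x.det = 1) (ht : x.trace ^ 2 ≠ 4) (hz : z * x = x * z) (hzd : z.det = 1)
    (hzt : z.trace = x.trace) : z = x ∨ z = x.trace • 1 - x := by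
  obtain ⟨a, b, rfl⟩ := exists_eq_of_commute hx hz
  simp [trace_fin_two, det_fin_two] at hd hzd hzt ht
  have h : (1 - b) * (1 + b) * ((x 0 0 + x 1 1) ^ 2 - 4) = 0 := by
    linear_combination 4 * hzd - 4 * b ^ 2 * hd
      - (2 * a + b * (x 0 0 + x 1 1) + (x 0 0 + x 1 1)) * hzt
  rcases mul_eq_zero.1 h with h | h
  · rcases mul_eq_zero.1 h with h | h
    · have hb : b = 1 := (sub_eq_zero.1 h).symm
      subst hb
      have ha : a = 0 :=
        (mul_eq_zero.1 (by linear_combination hzt : (2 : k) * a = 0)).resolve_left h2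
      exact .inl (by simp [ha])
    · have hb : b = -1 := eq_neg_of_add_eq_zero_right h
      subst hb
      have ha : a = x 0 0 + x 1 1 := by
        have : (2 : k) * (a - (x 0 0 + x 1 1)) = 0 := by linear_combination hzt
        exact sub_eq_zero.1 ((mul_eq_zero.1 this).resolve_left h2)
      exact .inr (by simp [ha, trace_fin_two, sub_eq_add_neg])
  · exact absurd (sub_eq_zero.1 h) ht

/-- Over an algebraically closed field every matrix has an eigenvector. -/
theorem exists_eigenvector {K : Type*} [Field K] [IsAlgClosed K] (x : M2 K) :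
    ∃ (μ : K) (v : Fin 2 → K), v ≠ 0 ∧ x *ᵥ v = μ • v := by
  obtain ⟨μ, hμ⟩ := IsAlgClosed.exists_root
    (Polynomial.C (1 : K) * Polynomial.X ^ 2 + Polynomial.C (-x.trace) * Polynomial.X
      + Polynomial.C x.det) (by rw [Polynomial.degree_quadratic one_ne_zero]; norm_num)
  have hroot : (x - μ • 1).det = 0 := by
    simp [Polynomial.IsRoot, trace_fin_two, det_fin_two] at hμ ⊢
    linear_combination hμ
  obtain ⟨v, hv, hv0⟩ := exists_mulVec_eq_zero_iff.2 hroot
  exact ⟨μ, v, hv, by simpa [sub_mulVec, smul_mulVec, sub_eq_zero] using hv0⟩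

/-- The eigenspaces of a nonscalar matrix are lines. -/
theorem exists_smul_of_eigenvector {x : M2 k} (hx : ¬ IsScalar x) {μ : k} {v w : Fin 2 → k}
    (hv : v ≠ 0) (hxv : x *ᵥ v = μ • v) (hxw : x *ᵥ w = μ • w) : ∃ c : k, w = c • v := by
  have a0 := congrFun hxv 0
  have a1 := congrFun hxv 1
  have b0 := congrFun hxw 0
  have b1 := congrFun hxw 1
  simp only [mulVec, dotProduct, Fin.sum_univ_two, Pi.smul_apply, smul_eq_mul] at a0 a1 b0 b1
  have hD : v 0 * w 1 - v 1 * w 0 = 0 := by
    by_contra hD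
    refine hx ⟨(mul_eq_zero.1 ?_).resolve_right hD, (mul_eq_zero.1 ?_).resolve_right hD,
      sub_eq_zero.1 ((mul_eq_zero.1 ?_).resolve_right hD)⟩
    · linear_combination v 0 * b0 - w 0 * a0
    · linear_combination w 1 * a1 - v 1 * b1
    · linear_combination w 1 * a0 - v 1 * b0 + w 0 * a1 - v 0 * b1
  by_cases h0 : v 0 = 0
  · have h1 : v 1 ≠ 0 := fun h1 => hv (vecExt₂ h0 h1)
    refine ⟨w 1 / v 1, vecExt₂ ?_ ?_⟩
    · simp only [Pi.smul_apply, smul_eq_mul]
      field_simp
      linear_combination -hD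
    · simp [h1]
  · refine ⟨w 0 / v 0, vecExt₂ ?_ ?_⟩
    · simp [h0]
    · simp only [Pi.smul_apply, smul_eq_mul]
      field_simp
      linear_combination hD

/-- A nonzero trace zero matrix is not scalar. -/
theorem not_isScalar_of_trace {x : M2 k} (h2 : (2 : k) ≠ 0) (hx : x ≠ 0) (ht : x.trace = 0) :
    ¬ IsScalar x := by
  rintro ⟨h1, h3, h4⟩
  rw [trace_fin_two, ← h4, ← two_mul] at ht
  have h0 : x 0 0 = 0 := (mul_eq_zero.1 ht).resolve_left h2
  exact hx (ext₂ h0 h1 h3 (h4 ▸ h0))

/-- Two trace zero matrices with vanishing commutator are proportional. -/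
theorem exists_smul_of_commute {a b : M2 k} (h2 : (2 : k) ≠ 0) (ha : a ≠ 0)
    (hat : a.trace = 0) (hbt : b.trace = 0) (h : b * a = a * b) : ∃ c : k, b = c • a := by
  obtain ⟨u, v, rfl⟩ := exists_eq_of_commute (not_isScalar_of_trace h2 ha hat) h
  refine ⟨v, ?_⟩
  simp [trace_fin_two] at hat hbt
  have : u = 0 :=
    (mul_eq_zero.1 (by linear_combination hbt - v * hat : (2 : k) * u = 0)).resolve_left h2
  simp [this]

/-- The common orthogonal of two independent trace zero matrices is spanned by their commutator. -/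
theorem orth_eq_smul {a b z : M2 k} (hat : a.trace = 0) (hbt : b.trace = 0)
    (hzt : z.trace = 0) (hza : (z * a).trace = 0) (hzb : (z * b).trace = 0)
    (hne : a * b - b * a ≠ 0) : ∃ c : k, z = c • (a * b - b * a) := by
  simp only [trace_fin_two, mul_apply, Fin.sum_univ_two] at hat hbt hzt hza hzb
  have ea : a 1 1 = -a 0 0 := eq_neg_of_add_eq_zero_right hat
  have eb : b 1 1 = -b 0 0 := eq_neg_of_add_eq_zero_right hbt
  have ez : z 1 1 = -z 0 0 := eq_neg_of_add_eq_zero_right hzt
  rw [ea, ez] at hza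
  rw [eb, ez] at hzb
  set w := a * b - b * a with hw
  have w00 : w 0 0 = a 0 1 * b 1 0 - b 0 1 * a 1 0 := by
    simp [hw, mul_apply, Fin.sum_univ_two]; ring
  have w01 : w 0 1 = 2 * (a 0 0 * b 0 1 - b 0 0 * a 0 1) := by
    simp [hw, mul_apply, Fin.sum_univ_two, ea, eb]; ring
  have w10 : w 1 0 = 2 * (a 1 0 * b 0 0 - b 1 0 * a 0 0) := by
    simp [hw, mul_apply, Fin.sum_univ_two, ea, eb]; ring
  have w11 : w 1 1 = -w 0 0 := by
    simp [hw, mul_apply, Fin.sum_univ_two]; ring
  have c1 : z 0 0 * w 0 1 = z 0 1 * w 0 0 := by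
    rw [w00, w01]; linear_combination b 0 1 * hza - a 0 1 * hzb
  have c2 : z 0 0 * w 1 0 = z 1 0 * w 0 0 := by
    rw [w00, w10]; linear_combination a 1 0 * hzb - b 1 0 * hza
  have c3 : z 0 1 * w 1 0 = z 1 0 * w 0 1 := by
    rw [w01, w10]; linear_combination 2 * b 0 0 * hza - 2 * a 0 0 * hzb
  by_cases h0 : w 0 0 = 0
  · by_cases h1 : w 0 1 = 0
    · have h3 : w 1 0 ≠ 0 := fun h3 => hne (ext₂ h0 h1 h3 (by rw [w11, h0]; simp))
      refine ⟨z 1 0 / w 1 0, ext₂ ?_ ?_ ?_ ?_⟩ <;> simp only [Matrix.smul_apply, smul_eq_mul]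
      · field_simp; linear_combination c2
      · field_simp; linear_combination c3
      · field_simp
      · rw [ez, w11]; field_simp; linear_combination -c2
    · refine ⟨z 0 1 / w 0 1, ext₂ ?_ ?_ ?_ ?_⟩ <;> simp only [Matrix.smul_apply, smul_eq_mul]
      · field_simp; linear_combination c1
      · field_simp
      · field_simp; linear_combination -c3
      · rw [ez, w11]; field_simp; linear_combination -c1
  · refine ⟨z 0 0 / w 0 0, ext₂ ?_ ?_ ?_ ?_⟩ <;> simp only [Matrix.smul_apply, smul_eq_mul]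
    · field_simp
    · field_simp; linear_combination -c1
    · field_simp; linear_combination -c2
    · rw [ez, w11]; field_simp

/-- Non proportional nilpotent matrices pair nontrivially. -/
theorem trace_mul_ne_zero {N N' : M2 k} (hN : N ≠ 0) (hNt : N.trace = 0) (hNd : N.det = 0)
    (hN't : N'.trace = 0) (hN'd : N'.det = 0) (h : ∀ c : k, N' ≠ c • N) :
    (N * N').trace ≠ 0 := by
  intro h0
  simp only [trace_fin_two, mul_apply, Fin.sum_univ_two, det_fin_two] at hNt hNd hN't hN'd h0
  have ea : N 1 1 = -N 0 0 := eq_neg_of_add_eq_zero_right hNt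
  have eb : N' 1 1 = -N' 0 0 := eq_neg_of_add_eq_zero_right hN't
  rw [ea] at hNd; rw [eb] at hN'd; rw [ea, eb] at h0
  have c1 : N 0 0 * N' 0 1 = N 0 1 * N' 0 0 := by
    have : (N 0 0 * N' 0 1 - N 0 1 * N' 0 0) ^ 2 = 0 := by
      linear_combination (-(N' 0 1) ^ 2) * hNd - (N 0 1) ^ 2 * hN'd - N 0 1 * N' 0 1 * h0
    exact sub_eq_zero.1 (sq_eq_zero_iff.1 this)
  have c2 : N 0 0 * N' 1 0 = N 1 0 * N' 0 0 := by
    have : (N 0 0 * N' 1 0 - N 1 0 * N' 0 0) ^ 2 = 0 := by
      linear_combination (-(N' 1 0) ^ 2) * hNd - (N 1 0) ^ 2 * hN'd - N 1 0 * N' 1 0 * h0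
    exact sub_eq_zero.1 (sq_eq_zero_iff.1 this)
  by_cases h00 : N 0 0 = 0
  · have hp : N 0 1 * N 1 0 = 0 := by linear_combination -hNd - N 0 0 * h00
    rcases mul_eq_zero.1 hp with h01 | h10
    · have h10 : N 1 0 ≠ 0 := fun e => hN (ext₂ h00 h01 e (by rw [ea, h00]; simp))
      have p00 : N' 0 0 = 0 :=
        (mul_eq_zero.1 (by rw [← c2, h00, zero_mul] : N 1 0 * N' 0 0 = 0)).resolve_left h10
      have p01 : N' 0 1 = 0 := by
        rw [h00, h01, p00] at h0
        exact (mul_eq_zero.1 (by linear_combination h0 : N 1 0 * N' 0 1 = 0)).resolve_left h10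
      exact h (N' 1 0 / N 1 0) (ext₂ (by simp [h00, p00]) (by simp [h01, p01]) (by simp [h10])
        (by simp [ea, eb, h00, p00]))
    · have h01 : N 0 1 ≠ 0 := fun e => hN (ext₂ h00 e h10 (by rw [ea, h00]; simp))
      have p00 : N' 0 0 = 0 :=
        (mul_eq_zero.1 (by rw [← c1, h00, zero_mul] : N 0 1 * N' 0 0 = 0)).resolve_left h01
      have p10 : N' 1 0 = 0 := by
        rw [h00, h10, p00] at h0
        exact (mul_eq_zero.1 (by linear_combination h0 : N 0 1 * N' 1 0 = 0)).resolve_left h01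
      exact h (N' 0 1 / N 0 1) (ext₂ (by simp [h00, p00]) (by simp [h01]) (by simp [h10, p10])
        (by simp [ea, eb, h00, p00]))
  · refine h (N' 0 0 / N 0 0) (ext₂ ?_ ?_ ?_ ?_) <;> simp only [Matrix.smul_apply, smul_eq_mul]
    · field_simp
    · field_simp; linear_combination c1
    · field_simp; linear_combination c2
    · rw [ea, eb]; field_simp

end Fermat.Agent.TWElement
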